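import Fermat.Agent.CombinatorialSieve.Defect
import Fermat.Agent.ErdosKac.Mertens

/-!
# The dimension of a sieve, from Mertens' theorem

`∑_{w ≤ p < Z} 1 / p ≤ log log Z - log log w + 11`, so a density with
`x p / (1 - x p) ≤ κ / p + B / p ^ 2` has dimension `κ` with the constant `exp (11 κ + B)`.
-/

set_option autoImplicit false

noncomputable section

namespace FA.CombinatorialSieve

open Finset
open scoped ArithmeticFunction.vonMangoldt

/-- Mertens' second theorem as a one-sided bound with explicit constant. -/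
theorem sum_prime_inv_Ioc_le {m n : ℕ} (hm : 2 ≤ m) (hmn : m ≤ n) :
    ∑ q ∈ (Ioc m n).filter Nat.Prime, (q : ℝ)⁻¹ ≤
      1 + 6 / Real.log m + Real.log (Real.log n) - Real.log (Real.log m) := by
  obtain ⟨G, hG⟩ : ∃ G : ℕ → ℝ, G = fun k => ∑ q ∈ (Ioc 0 k).filter Nat.Prime,
      Real.log q / q := ⟨_, rfl⟩
  have hGle : ∀ k, 1 ≤ k → G k ≤ Real.log k + 6 := fun k hk => by
    have h := (abs_le.1 (PrimesMinusOne.abs_sum_vonMangoldt_div_sub_le hk)).2
    refine le_trans ?_ (show ∑ d ∈ Ioc 0 k, Λ d / d ≤ Real.log k + 6 by linarith)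
    rw [hG]
    refine le_of_eq_of_le (sum_congr rfl fun q hq => ?_) (sum_le_sum_of_subset_of_nonneg
      (filter_subset _ _) fun d _ _ =>
        div_nonneg ArithmeticFunction.vonMangoldt_nonneg (Nat.cast_nonneg d))
    rw [ArithmeticFunction.vonMangoldt_apply_prime (mem_filter.1 hq).2]
  have hlpos : ∀ k : ℕ, 2 ≤ k → (0 : ℝ) < Real.log k := fun k hk =>
    Real.log_pos (Nat.one_lt_cast.2 (by omega))
  have key : ∑ q ∈ (Ioc m n).filter Nat.Prime, (q : ℝ)⁻¹ ≤
      G n / Real.log n + Real.log (Real.log n) - Real.log (Real.log m) +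
        6 / Real.log m - 6 / Real.log n := by
    induction n, hmn using Nat.le_induction with
    | base =>
      have : 0 ≤ G m / Real.log m := div_nonneg (hG ▸ sum_nonneg fun q _ =>
        div_nonneg (Real.log_natCast_nonneg q) (Nat.cast_nonneg q)) (hlpos m hm).le
      simp only [Ioc_self, filter_empty, sum_empty]
      linarith
    | succ k hk ih =>
      have h0 := hlpos k (hm.trans hk)
      have h1 := hlpos (k + 1) (by omega)
      have hle : Real.log k ≤ Real.log (k + 1 : ℕ) :=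
        Real.log_le_log (Nat.cast_pos.2 (by omega)) (Nat.cast_le.2 (Nat.le_succ k))
      have hstep : ∑ q ∈ (Ioc m (k + 1)).filter Nat.Prime, (q : ℝ)⁻¹ =
          (∑ q ∈ (Ioc m k).filter Nat.Prime, (q : ℝ)⁻¹) +
            (G (k + 1) - G k) / Real.log (k + 1 : ℕ) := by
        rw [hG]
        dsimp only
        simp only [sum_filter, sum_Ioc_succ_top hk, sum_Ioc_succ_top (Nat.zero_le k),
          add_sub_cancel_left]
        congr 1
        split_ifs
        · rw [div_div, mul_comm, ← div_div, div_self h1.ne', one_div]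
        · simp
      rw [hstep]
      have hkey : G k * ((Real.log k)⁻¹ - (Real.log (k + 1 : ℕ))⁻¹) ≤
          Real.log (Real.log (k + 1 : ℕ)) - Real.log (Real.log k) +
            6 * ((Real.log k)⁻¹ - (Real.log (k + 1 : ℕ))⁻¹) := by
        refine (mul_le_mul_of_nonneg_right (hGle k (by omega))
          (sub_nonneg.2 (inv_anti₀ h0 hle))).trans ?_
        rw [add_mul, add_le_add_iff_right, mul_sub, mul_inv_cancel₀ h0.ne', ← div_eq_mul_inv,
          ← Real.log_div h1.ne' h0.ne']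
        have h2 := Real.one_sub_inv_le_log_of_pos (div_pos h1 h0)
        rwa [inv_div] at h2
      simp only [div_eq_mul_inv] at ih ⊢
      linarith
  have hn := hGle n (by omega)
  have h0 := hlpos n (hm.trans hmn)
  have h2 : G n / Real.log n ≤ 1 + 6 / Real.log n := by
    rw [div_le_iff₀ h0, add_mul, one_mul, div_mul_cancel₀ _ h0.ne']
    linarith
  linarith

/-- **Mertens**: primes in `[w, Z)`. -/
theorem sum_prime_inv_le {T : Finset ℕ} {w Z : ℝ} (hw : 2 ≤ w) (hwZ : w ≤ Z)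
    (hT : ∀ p ∈ T, p.Prime ∧ w ≤ p ∧ (p : ℝ) < Z) :
    ∑ p ∈ T, (p : ℝ)⁻¹ ≤ Real.log (Real.log Z) - Real.log (Real.log w) + 11 := by
  have hlw : 0 < Real.log w := Real.log_pos (by linarith)
  have hmono : Real.log (Real.log w) ≤ Real.log (Real.log Z) :=
    Real.log_le_log hlw (Real.log_le_log (by linarith) hwZ)
  rcases T.eq_empty_or_nonempty with rfl | ⟨p₀, hp₀⟩
  · simp
    linarith
  obtain ⟨m, hm⟩ : ∃ m, m = max 2 (⌈w⌉₊ - 1) := ⟨_, rfl⟩
  obtain ⟨n, hn⟩ : ∃ n, n = ⌈Z⌉₊ - 1 := ⟨_, rfl⟩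
  have hm2 : 2 ≤ m := hm ▸ le_max_left _ _
  have hTn : ∀ p ∈ T, p ≤ n := fun p hp => by
    have := Nat.lt_ceil.2 (hT p hp).2.2
    omega
  have hn2 : 2 ≤ n := (hT p₀ hp₀).1.two_le.trans (hTn p₀ hp₀)
  have hmn : m ≤ n := by
    rw [hm, hn]
    exact max_le (hn ▸ hn2) (Nat.sub_le_sub_right (Nat.ceil_le_ceil hwZ) 1)
  have hsub : T ⊆ insert 2 ((Ioc m n).filter Nat.Prime) := fun p hp => by
    rw [mem_insert, mem_filter, mem_Ioc]
    have h1 : ⌈w⌉₊ ≤ p := Nat.ceil_le.2 (hT p hp).2.1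
    have h2 := (hT p hp).1.two_le
    have := hTn p hp
    by_cases h : p = 2
    · exact Or.inl h
    · exact Or.inr ⟨⟨by omega, this⟩, (hT p hp).1⟩
  have hnotmem : 2 ∉ (Ioc m n).filter Nat.Prime := fun h => by
    have := (mem_Ioc.1 (mem_filter.1 h).1).1
    omega
  refine (sum_le_sum_of_subset_of_nonneg hsub fun p _ _ => by positivity).trans ?_
  rw [sum_insert hnotmem]
  refine (add_le_add_right (sum_prime_inv_Ioc_le hm2 hmn) _).trans ?_
  have hm2' : (2 : ℝ) ≤ m := Nat.ofNat_le_cast.2 hm2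
  have h1 : Real.log (Real.log n) ≤ Real.log (Real.log Z) := by
    refine Real.log_le_log (Real.log_pos (Nat.one_lt_cast.2 (by omega)))
      (Real.log_le_log (Nat.cast_pos.2 (by omega)) ?_)
    exact (Nat.lt_ceil.1 (show n < ⌈Z⌉₊ by omega)).le
  have h2 : Real.log (Real.log w) ≤ Real.log 2 + Real.log (Real.log m) := by
    rw [← Real.log_mul two_ne_zero (Real.log_pos (by linarith)).ne']
    refine Real.log_le_log hlw ?_
    rw [show (2 : ℝ) = ((2 : ℕ) : ℝ) by norm_num, ← Real.log_pow]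
    refine Real.log_le_log (by linarith) ?_
    have h3 : w ≤ (m : ℝ) + 1 := by
      refine (Nat.le_ceil w).trans ?_
      exact_mod_cast (show ⌈w⌉₊ ≤ m + 1 by omega)
    nlinarith
  have h4 : 6 / Real.log m ≤ 8.66 := by
    refine (div_le_div_of_nonneg_left (by norm_num) (Real.log_pos one_lt_two)
      (Real.log_le_log two_pos hm2')).trans ?_
    rw [div_le_iff₀ (Real.log_pos one_lt_two)]
    linarith [Real.log_two_gt_d9]
  have := Real.log_two_lt_d9
  push_cast
  linarith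

theorem sum_inv_sq_primes_le {T : Finset ℕ} (hT : ∀ p ∈ T, 2 ≤ p) :
    ∑ p ∈ T, ((p : ℝ) ^ 2)⁻¹ ≤ 1 := by
  refine (sum_le_sum_of_subset_of_nonneg (t := Ioo 1 (T.sup id + 1)) (fun p hp => ?_)
    fun p _ _ => by positivity).trans ((sum_Ioo_inv_sq_le 1 _).trans (by norm_num))
  rw [mem_Ioo]
  exact ⟨hT p hp, Nat.lt_succ_of_le (le_sup (f := id) hp)⟩

/-- **A criterion for the dimension `κ`.** -/
theorem dimensionBound_of_le {T : Finset ℕ} {x : ℕ → ℝ} {Z κ B : ℝ} (hκ : 0 ≤ κ) (hB : 0 ≤ B)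
    (hT : ∀ p ∈ T, p.Prime ∧ (p : ℝ) < Z) (hx : ∀ p ∈ T, 0 ≤ x p ∧ x p < 1)
    (hbd : ∀ p ∈ T, x p / (1 - x p) ≤ κ / p + B / (p : ℝ) ^ 2) :
    DimensionBound T x Z κ (Real.exp (11 * κ + B)) := by
  intro w hw hwZ
  have hlw : 0 < Real.log w := Real.log_pos (by linarith)
  have hlZ : 0 < Real.log Z := hlw.trans_le (Real.log_le_log (by linarith) hwZ)
  rw [Real.rpow_def_of_pos (by positivity), ← Real.exp_add,
    Real.log_div hlZ.ne' hlw.ne']
  refine (prod_le_prod (g := fun p : ℕ => Real.exp (κ / p + B / (p : ℝ) ^ 2))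
    (fun p hp => ?_) fun p hp => ?_).trans ?_
  · exact inv_nonneg.2 (sub_nonneg.2 (hx p (mem_filter.1 hp).1).2.le)
  · have h1 := (hx p (mem_filter.1 hp).1).2
    refine le_trans (le_of_eq ?_) ((Real.add_one_le_exp _).trans
      (Real.exp_le_exp.2 (hbd p (mem_filter.1 hp).1)))
    field_simp [(sub_pos.2 h1).ne']
    ring
  · rw [← Real.exp_sum, Real.exp_le_exp, sum_add_distrib]
    simp only [div_eq_mul_inv, ← mul_sum]
    have h1 := mul_le_mul_of_nonneg_left (sum_prime_inv_le (T := T.filter fun p : ℕ => w ≤ p) hw hwZ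
      fun p hp => ⟨(hT p (mem_filter.1 hp).1).1, (mem_filter.1 hp).2,
        (hT p (mem_filter.1 hp).1).2⟩) hκ
    have h2 := mul_le_mul_of_nonneg_left (sum_inv_sq_primes_le (T := T.filter fun p : ℕ => w ≤ p)
      fun p hp => (hT p (mem_filter.1 hp).1).1.two_le) hB
    linarith

/-- The lower bound for the product. -/
theorem inv_mul_rpow_le_prod {T : Finset ℕ} {x : ℕ → ℝ} {Z κ K : ℝ} (hK : 0 < K) (hZ : 2 ≤ Z)
    (hT : ∀ p ∈ T, 2 ≤ p) (hx : ∀ p ∈ T, x p < 1) (h : DimensionBound T x Z κ K) :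
    K⁻¹ * (Real.log 2 / Real.log Z) ^ κ ≤ ∏ p ∈ T, (1 - x p) := by
  have h1 := h 2 le_rfl hZ
  rw [filter_true_of_mem fun (p : ℕ) hp => show (2 : ℝ) ≤ (p : ℝ) from
      Nat.ofNat_le_cast.2 (hT p hp),
    prod_inv_distrib] at h1
  have hl2 : 0 < Real.log 2 := Real.log_pos one_lt_two
  have hlZ : 0 < Real.log Z := Real.log_pos (by linarith)
  have hpos : 0 < K * (Real.log Z / Real.log 2) ^ κ :=
    mul_pos hK (Real.rpow_pos_of_pos (div_pos hlZ hl2) κ)
  refine le_trans (le_of_eq ?_)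
    (inv_le_of_inv_le₀ (prod_pos fun p hp => sub_pos.2 (hx p hp)) h1)
  rw [mul_inv, ← Real.inv_rpow (div_nonneg hlZ.le hl2.le), inv_div]

end FA.CombinatorialSieve
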