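import Fermat.Agent.CombinatorialSieve.Sieve
import Fermat.Agent.CombinatorialSieve.Dimension
import Fermat.Agent.PrimesMinusOne.BrunTitchmarsh

/-!
# Integers without small prime factors

The number of `n ≤ N` without prime factor `< Z` is `N ∏_{p < Z} (1 - 1 / p)` up to
`20 e ^ 140 e ^ (-s)` times this and `Z ^ s`; the product is of the order `1 / log Z`.
-/

set_option autoImplicit false

noncomputable section

namespace FA.CombinatorialSieve

open Finset
open FA.PrimesMinusOne (invFun invFun_apply invFun_isMultiplicative)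

/-- The primes `< Z` not dividing `M`. -/
def sievingPrimes (Z : ℝ) (M : ℕ) : Finset ℕ :=
  (range ⌈Z⌉₊).filter fun p => p.Prime ∧ ¬ p ∣ M

/-- Their product. -/
def sievingProd (Z : ℝ) (M : ℕ) : ℕ := ∏ p ∈ sievingPrimes Z M, p

theorem mem_sievingPrimes {Z : ℝ} {M p : ℕ} :
    p ∈ sievingPrimes Z M ↔ p.Prime ∧ (p : ℝ) < Z ∧ ¬ p ∣ M := by
  rw [sievingPrimes, mem_filter, mem_range, Nat.lt_ceil]
  tauto

theorem prime_of_mem_sievingPrimes {Z : ℝ} {M p : ℕ} (hp : p ∈ sievingPrimes Z M) : p.Prime :=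
  (mem_sievingPrimes.1 hp).1

theorem squarefree_sievingProd (Z : ℝ) (M : ℕ) : Squarefree (sievingProd Z M) :=
  squarefree_prod_of_pairwise_isCoprime (fun _ hp _ hp' h => Nat.coprime_iff_isRelPrime.1
    ((Nat.coprime_primes (prime_of_mem_sievingPrimes hp) (prime_of_mem_sievingPrimes hp')).2 h))
    fun _ hp => (prime_of_mem_sievingPrimes hp).squarefree

theorem primeFactors_sievingProd (Z : ℝ) (M : ℕ) :
    (sievingProd Z M).primeFactors = sievingPrimes Z M :=
  Nat.primeFactors_prod fun _ hp => prime_of_mem_sievingPrimes hp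

theorem prime_dvd_sievingProd_iff {Z : ℝ} {M p : ℕ} (hp : p.Prime) :
    p ∣ sievingProd Z M ↔ (p : ℝ) < Z ∧ ¬ p ∣ M := by
  rw [← Nat.mem_primeFactors_of_ne_zero (squarefree_sievingProd Z M).ne_zero |>.trans
    (and_iff_right hp), primeFactors_sievingProd, mem_sievingPrimes]
  tauto

/-- The sieve of the integers `≤ N`. -/
def intSieve (N : ℕ) (Z : ℝ) : BoundingSieve where
  support := Ioc 0 N
  prodPrimes := sievingProd Z 1
  prodPrimes_squarefree := squarefree_sievingProd Z 1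
  weights _ := 1
  weights_nonneg _ := zero_le_one
  totalMass := N
  nu := invFun
  nu_mult := invFun_isMultiplicative
  nu_pos_of_prime p hp _ := by
    rw [invFun_apply]
    exact inv_pos.2 (Nat.cast_pos.2 hp.pos)
  nu_lt_one_of_prime p hp _ := by
    rw [invFun_apply]
    exact inv_lt_one_of_one_lt₀ (Nat.one_lt_cast.2 hp.one_lt)

theorem intSieve_rem (N : ℕ) (Z : ℝ) {d : ℕ} (hd : 0 < d) : |(intSieve N Z).rem d| ≤ 1 := by
  rw [BoundingSieve.rem, BoundingSieve.multSum]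
  have e : (∑ n ∈ (intSieve N Z).support, if d ∣ n then (intSieve N Z).weights n else 0) =
      ((N / d : ℕ) : ℝ) := by
    show (∑ n ∈ Ioc 0 N, if d ∣ n then (1 : ℝ) else 0) = _
    rw [sum_boole, Nat.Ioc_filter_dvd_card_eq_div]
  rw [e, show (intSieve N Z).nu d * (intSieve N Z).totalMass = (N : ℝ) / d from
    by show invFun d * (N : ℝ) = _; rw [invFun_apply, inv_mul_eq_div], abs_le]
  have h1 := Nat.cast_div_le (α := ℝ) (m := N) (n := d)
  have hd0 : (0 : ℝ) < d := Nat.cast_pos.2 hd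
  have h2 : (N : ℝ) / d ≤ ((N / d : ℕ) : ℝ) + 1 := by
    rw [div_le_iff₀ hd0]
    have h3 : N ≤ (N / d + 1) * d := by
      have := Nat.lt_mul_div_succ N hd
      rw [mul_comm]
      omega
    exact_mod_cast h3
  constructor <;> linarith

theorem prod_one_sub_inv_dimension {Z : ℝ} :
    DimensionBound (sievingPrimes Z 1) invFun Z 1 (Real.exp (11 * 1 + 2)) := by
  refine dimensionBound_of_le zero_le_one zero_le_two (fun p hp =>
    ⟨prime_of_mem_sievingPrimes hp, (mem_sievingPrimes.1 hp).2.1⟩) (fun p hp => ?_) fun p hp => ?_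
  · have h2 : (1 : ℝ) < p := Nat.one_lt_cast.2 (prime_of_mem_sievingPrimes hp).one_lt
    rw [invFun_apply]
    exact ⟨by positivity, inv_lt_one_of_one_lt₀ h2⟩
  · have h2 : (2 : ℝ) ≤ p := Nat.ofNat_le_cast.2 (prime_of_mem_sievingPrimes hp).two_le
    rw [invFun_apply]
    rw [show (p : ℝ)⁻¹ / (1 - (p : ℝ)⁻¹) = 1 / ((p : ℝ) - 1) by field_simp,
      show (1 : ℝ) / p + 2 / (p : ℝ) ^ 2 = ((p : ℝ) + 2) / (p : ℝ) ^ 2 by field_simp,
      div_le_div_iff₀ (by linarith) (by positivity)]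
    nlinarith

open Classical in
/-- **The fundamental lemma for the integers.** -/
theorem abs_sifted_sub_le (N : ℕ) {Z s : ℝ} (hZ : 2 ≤ Z) (hs : 10 ≤ s) :
    |(#((Ioc 0 N).filter fun n : ℕ => ∀ p : ℕ, p.Prime → (p : ℝ) < Z → ¬ p ∣ n) : ℝ) -
        N * ∏ p ∈ (range ⌈Z⌉₊).filter Nat.Prime, (1 - (p : ℝ)⁻¹)| ≤
      20 * Real.exp 140 * Real.exp (-s) * (N * ∏ p ∈ (range ⌈Z⌉₊).filter Nat.Prime,
        (1 - (p : ℝ)⁻¹)) + Z ^ s := by
  have hone : ∀ Q : ℕ, Q ∈ sievingPrimes Z 1 ↔ Q ∈ (range ⌈Z⌉₊).filter Nat.Prime := fun Q => by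
    simp only [sievingPrimes, mem_filter, and_congr_right_iff, and_iff_left_iff_imp]
    exact fun _ h => h.not_dvd_one
  have hV : sieveProduct (intSieve N Z) =
      ∏ p ∈ (range ⌈Z⌉₊).filter Nat.Prime, (1 - (p : ℝ)⁻¹) := by
    rw [sieveProduct, show (intSieve N Z).prodPrimes = sievingProd Z 1 from rfl,
      primeFactors_sievingProd, Finset.ext hone]
    rfl
  have hS : (intSieve N Z).siftedSum =
      (#((Ioc 0 N).filter fun n : ℕ => ∀ p : ℕ, p.Prime → (p : ℝ) < Z → ¬ p ∣ n) : ℝ) := by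
    rw [BoundingSieve.siftedSum]
    show (∑ d ∈ Ioc 0 N, if Nat.Coprime (sievingProd Z 1) d then (1 : ℝ) else 0) = _
    rw [sum_boole]
    congr 2
    refine filter_congr fun n _ => ⟨fun h p hp hpZ hpn => ?_, fun h => ?_⟩
    · exact hp.not_dvd_one (h ▸ Nat.dvd_gcd
        ((prime_dvd_sievingProd_iff hp).2 ⟨hpZ, hp.not_dvd_one⟩) hpn)
    · by_contra hc
      obtain ⟨p, hp, hpP, hpn⟩ := Nat.Prime.not_coprime_iff_dvd.1 hc
      exact h p hp ((prime_dvd_sievingProd_iff hp).1 hpP).1 hpn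
  have h := fundamental_lemma (intSieve N Z) (K := Real.exp 13) (β := 10) (κ := 1)
    (Nat.cast_nonneg N) (fun p hp => by
      rw [show (intSieve N Z).prodPrimes = sievingProd Z 1 from rfl, primeFactors_sievingProd] at hp
      exact (mem_sievingPrimes.1 hp).2.1) hZ zero_le_one (by norm_num) (by norm_num)
    (Real.one_le_exp (by norm_num)) (by exact_mod_cast hs) (by
      rw [show (intSieve N Z).prodPrimes = sievingProd Z 1 from rfl, primeFactors_sievingProd]
      have hd := prod_one_sub_inv_dimension (Z := Z)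
      rw [show (11 : ℝ) * 1 + 2 = 13 by norm_num] at hd
      exact hd)
  rw [hS, hV, show (intSieve N Z).totalMass = (N : ℝ) from rfl] at h
  refine h.trans (add_le_add (le_of_eq ?_) ?_)
  · rw [← Real.exp_nat_mul, show (20 : ℝ) * Real.exp ((10 : ℕ) : ℝ) *
      Real.exp (((10 : ℕ) : ℝ) * 13) = 20 * (Real.exp ((10 : ℕ) : ℝ) *
      Real.exp (((10 : ℕ) : ℝ) * 13)) by ring, ← Real.exp_add]
    norm_num
  · rw [remSum]
    refine (sum_le_card_nsmul _ _ 1 fun d hd => intSieve_rem N Z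
      (Nat.pos_of_mem_divisors (mem_filter.1 hd).1)).trans ?_
    rw [nsmul_eq_mul, mul_one]
    refine le_trans ?_ (Nat.floor_le (Real.rpow_nonneg (by linarith) s))
    refine Nat.cast_le.2 ((card_le_card (t := Icc 1 ⌊Z ^ s⌋₊) fun d hd => ?_).trans
      (Nat.card_Icc 1 _).le)
    rw [mem_filter] at hd
    exact mem_Icc.2 ⟨Nat.pos_of_mem_divisors hd.1, Nat.le_floor hd.2.le⟩

/-- **Mertens' product is of the order `1 / log Z`.** -/
theorem exists_mertens_product : ∃ c C : ℝ, 0 < c ∧ ∀ Z : ℝ, 2 ≤ Z →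
    c / Real.log Z ≤ ∏ p ∈ (range ⌈Z⌉₊).filter Nat.Prime, (1 - (p : ℝ)⁻¹) ∧
      ∏ p ∈ (range ⌈Z⌉₊).filter Nat.Prime, (1 - (p : ℝ)⁻¹) ≤ C / Real.log Z := by
  obtain ⟨C, hC⟩ := ErdosKac.exists_abs_recipSum_sub_le
  refine ⟨(Real.exp 13)⁻¹ * Real.log 2, max (Real.log 3) (2 * Real.exp C),
    mul_pos (by positivity) (Real.log_pos one_lt_two), fun Z hZ => ⟨?_, ?_⟩⟩
  · have hone : sievingPrimes Z 1 = (range ⌈Z⌉₊).filter Nat.Prime := by
      ext q
      simp only [sievingPrimes, mem_filter, and_congr_right_iff, and_iff_left_iff_imp]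
      exact fun _ h => h.not_dvd_one
    have h := inv_mul_rpow_le_prod (Real.exp_pos _) hZ
      (fun p hp => (prime_of_mem_sievingPrimes hp).two_le) (fun p hp => by
        rw [invFun_apply]
        exact inv_lt_one_of_one_lt₀ (Nat.one_lt_cast.2 (prime_of_mem_sievingPrimes hp).one_lt))
      (prod_one_sub_inv_dimension (Z := Z))
    rw [hone, Real.rpow_one, show (11 : ℝ) * 1 + 2 = 13 by norm_num, ← mul_div_assoc] at h
    exact h
  · have hlZ : 0 < Real.log Z := Real.log_pos (by linarith)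
    have hnn : ∀ p ∈ (range ⌈Z⌉₊).filter Nat.Prime, 0 ≤ 1 - (p : ℝ)⁻¹ := fun p hp =>
      sub_nonneg.2 (inv_le_one_of_one_le₀ (Nat.one_le_cast.2 (mem_filter.1 hp).2.one_le))
    rw [le_div_iff₀ hlZ]
    rcases lt_or_ge Z 3 with h3 | h3
    · refine le_trans ?_ (le_max_left _ _)
      refine (mul_le_of_le_one_left hlZ.le (prod_le_one hnn fun p _ => sub_le_self _
        (by positivity))).trans (Real.log_le_log (by linarith) h3.le)
    refine le_trans ?_ (le_max_right _ _)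
    obtain ⟨n, hn⟩ : ∃ n, n = ⌈Z⌉₊ - 1 := ⟨_, rfl⟩
    have hceil : 3 ≤ ⌈Z⌉₊ := by exact_mod_cast h3.trans (Nat.le_ceil Z)
    have hn2 : 2 ≤ n := by omega
    have hset : (range ⌈Z⌉₊).filter Nat.Prime = ErdosKac.primesUpTo n := by
      ext q
      rw [ErdosKac.mem_primesUpTo, mem_filter, mem_range]
      exact ⟨fun h => ⟨h.2, by omega⟩, fun h => ⟨by omega, h.1⟩⟩
    have hlog : Real.log Z ≤ 2 * Real.log n := by
      rw [show (2 : ℝ) = ((2 : ℕ) : ℝ) by norm_num, ← Real.log_pow]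
      refine Real.log_le_log (by linarith) ?_
      have h1 : (⌈Z⌉₊ : ℝ) = (n : ℝ) + 1 := by exact_mod_cast (show ⌈Z⌉₊ = n + 1 by omega)
      have h2 : (2 : ℝ) ≤ n := Nat.ofNat_le_cast.2 hn2
      nlinarith [Nat.le_ceil Z]
    have hln : 0 < Real.log n := Real.log_pos (Nat.one_lt_cast.2 (by omega))
    have h := (abs_le.1 (hC n hn2)).1
    rw [ErdosKac.recipSum] at h
    rw [hset] at hnn ⊢
    refine (mul_le_mul ((prod_le_prod (g := fun p : ℕ => Real.exp (-(p : ℝ)⁻¹)) hnn fun p _ =>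
      by linarith [Real.add_one_le_exp (-(p : ℝ)⁻¹)]).trans (le_of_eq (Real.exp_sum _ _).symm))
      hlog hlZ.le (Real.exp_pos _).le).trans ?_
    rw [sum_neg_distrib]
    calc Real.exp (-∑ q ∈ ErdosKac.primesUpTo n, (q : ℝ)⁻¹) * (2 * Real.log n)
        ≤ Real.exp (C - Real.log (Real.log n)) * (2 * Real.log n) :=
          mul_le_mul_of_nonneg_right (Real.exp_le_exp.2 (by linarith)) (by positivity)
      _ = 2 * Real.exp C := by
          rw [Real.exp_sub, Real.exp_log hln]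
          field_simp

end FA.CombinatorialSieve
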