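import Fermat.Agent.CombinatorialSieve.Integers
import Fermat.Agent.Root.SummaryBombieriVinogradov

/-!
# Rényi's theorem: shifted primes with few prime factors

The primes `p ≤ x` in none of the classes `c` modulo the primes `q < x ^ (1/552)`, `q ∤ M`, have
`∑ log p ≫ x / log x` (`M` even): the fundamental lemma with the level `x ^ (1/3)` and the theorem
of Bombieri and Vinogradov.
-/

set_option autoImplicit false

noncomputable section

namespace FA.CombinatorialSieve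

open Finset Filter
open scoped Topology ArithmeticFunction.Omega

/-- `d ↦ 1 / φ d`. -/
def invPhi : ArithmeticFunction ℝ := ⟨fun n => (n.totient : ℝ)⁻¹, by simp⟩

theorem invPhi_apply (n : ℕ) : invPhi n = (n.totient : ℝ)⁻¹ := rfl

theorem invPhi_isMultiplicative : invPhi.IsMultiplicative :=
  ⟨by simp [invPhi_apply], fun {a b} h => by
    simp [invPhi_apply, Nat.totient_mul h, mul_comm]⟩

/-- The translation which turns the class `c` into the class `0`. -/
def classShift (Z : ℝ) (M c : ℕ) : ℕ := sievingProd Z M - c % sievingProd Z M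

theorem sievingProd_pos (Z : ℝ) (M : ℕ) : 0 < sievingProd Z M :=
  Nat.pos_of_ne_zero (squarefree_sievingProd Z M).ne_zero

theorem dvd_add_classShift_iff {Z : ℝ} {M c d p : ℕ} (hd : d ∣ sievingProd Z M) :
    d ∣ p + classShift Z M c ↔ p ≡ c [MOD d] := by
  have h1 : c % sievingProd Z M ≤ sievingProd Z M :=
    (Nat.mod_lt _ (sievingProd_pos Z M)).le
  rw [classShift, ← ZMod.natCast_eq_natCast_iff, ← ZMod.natCast_eq_zero_iff]
  push_cast [Nat.cast_sub h1]
  have h2 : ((sievingProd Z M : ℕ) : ZMod d) = 0 := (ZMod.natCast_eq_zero_iff _ _).2 hd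
  have h3 : ((c % sievingProd Z M : ℕ) : ZMod d) = c := by
    rw [ZMod.natCast_eq_natCast_iff]
    exact (Nat.mod_modEq c _).of_dvd hd
  rw [h2, h3, zero_sub, add_neg_eq_zero]

/-- The sieve of the translated primes `≤ x`, weighted with `log p`. -/
def shiftSieve (x : ℕ) (Z : ℝ) (M c : ℕ) (hM : 2 ∣ M) : BoundingSieve where
  support := ((Icc 1 x).filter Nat.Prime).image (· + classShift Z M c)
  prodPrimes := sievingProd Z M
  prodPrimes_squarefree := squarefree_sievingProd Z M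
  weights m := Real.log ((m - classShift Z M c : ℕ) : ℝ)
  weights_nonneg _ := Real.log_natCast_nonneg _
  totalMass := x
  nu := invPhi
  nu_mult := invPhi_isMultiplicative
  nu_pos_of_prime p hp _ := by
    rw [invPhi_apply]
    exact inv_pos.2 (Nat.cast_pos.2 (Nat.totient_pos.2 hp.pos))
  nu_lt_one_of_prime p hp hpd := by
    rw [invPhi_apply, Nat.totient_prime hp]
    refine inv_lt_one_of_one_lt₀ (Nat.one_lt_cast.2 ?_)
    have h2 := hp.two_le
    have : p ≠ 2 := fun h => ((prime_dvd_sievingProd_iff hp).1 hpd).2 (h ▸ hM)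
    omega

theorem shiftSieve_multSum {x : ℕ} {Z : ℝ} {M c : ℕ} (hM : 2 ∣ M) {d : ℕ}
    (hd : d ∣ sievingProd Z M) :
    (shiftSieve x Z M c hM).multSum d =
      ∑ p ∈ (Icc 1 x).filter (fun p : ℕ => p.Prime ∧ p ≡ c [MOD d]), Real.log p := by
  show (∑ m ∈ ((Icc 1 x).filter Nat.Prime).image (· + classShift Z M c),
    if d ∣ m then Real.log ((m - classShift Z M c : ℕ) : ℝ) else 0) = _
  rw [sum_image fun a _ b _ h => Nat.add_right_cancel h, ← filter_filter, sum_filter (fun p : ℕ =>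
    p ≡ c [MOD d])]
  exact sum_congr rfl fun p _ => by
    rw [Nat.add_sub_cancel]
    exact if_congr (dvd_add_classShift_iff hd) rfl rfl

theorem shiftSieve_siftedSum {x : ℕ} {Z : ℝ} {M c : ℕ} (hM : 2 ∣ M) :
    (shiftSieve x Z M c hM).siftedSum =
      ∑ p ∈ (Icc 1 x).filter (fun p : ℕ => p.Prime ∧ (sievingProd Z M).Coprime
        (p + classShift Z M c)), Real.log p := by
  rw [BoundingSieve.siftedSum]
  show (∑ m ∈ ((Icc 1 x).filter Nat.Prime).image (· + classShift Z M c),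
    if Nat.Coprime (sievingProd Z M) m then Real.log ((m - classShift Z M c : ℕ) : ℝ) else 0) = _
  rw [sum_image fun a _ b _ h => Nat.add_right_cancel h, ← filter_filter, sum_filter (fun p : ℕ =>
    (sievingProd Z M).Coprime (p + classShift Z M c))]
  exact sum_congr rfl fun p _ => by rw [Nat.add_sub_cancel]

theorem phi_dimension {Z : ℝ} {M : ℕ} (hM : 2 ∣ M) :
    DimensionBound (sievingPrimes Z M) invPhi Z 1 (Real.exp 17) := by
  have h3 : ∀ p ∈ sievingPrimes Z M, (3 : ℝ) ≤ p := fun p hp => by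
    obtain ⟨hp1, -, hp2⟩ := mem_sievingPrimes.1 hp
    have h2 := hp1.two_le
    have : p ≠ 2 := fun h => hp2 (h ▸ hM)
    exact_mod_cast (show 3 ≤ p by omega)
  have e : (11 : ℝ) * 1 + 6 = 17 := by norm_num
  rw [← e]
  refine dimensionBound_of_le zero_le_one (by norm_num) (fun p hp =>
    ⟨prime_of_mem_sievingPrimes hp, (mem_sievingPrimes.1 hp).2.1⟩) (fun p hp => ?_) fun p hp => ?_
  all_goals
    have h2 := h3 p hp
    rw [invPhi_apply, Nat.totient_prime (prime_of_mem_sievingPrimes hp),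
      Nat.cast_sub (prime_of_mem_sievingPrimes hp).one_le, Nat.cast_one]
  · exact ⟨inv_nonneg.2 (by linarith), inv_lt_one_of_one_lt₀ (by linarith)⟩
  · have h4 : ((p : ℝ) - 1) ≠ 0 := by linarith
    rw [show ((p : ℝ) - 1)⁻¹ / (1 - ((p : ℝ) - 1)⁻¹) = 1 / ((p : ℝ) - 2) by
        field_simp
        ring,
      show (1 : ℝ) / p + 6 / (p : ℝ) ^ 2 = ((p : ℝ) + 6) / (p : ℝ) ^ 2 by field_simp,
      div_le_div_iff₀ (by linarith) (by positivity)]
    nlinarith

/-- `∑ log p` over the primes `p ≤ x` in none of the classes `c` modulo `q < Z`, `q ∤ M`. -/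
def siftedTheta (x : ℕ) (Z : ℝ) (M c : ℕ) : ℝ :=
  ∑ p ∈ (Icc 1 x).filter (fun p : ℕ => p.Prime ∧ (sievingProd Z M).Coprime
    (p + classShift Z M c)), Real.log p

theorem avoid_of_coprime {Z : ℝ} {M c p q : ℕ}
    (h : (sievingProd Z M).Coprime (p + classShift Z M c))
    (hq : q.Prime) (hqZ : (q : ℝ) < Z) (hqM : ¬ q ∣ M) : ¬ p ≡ c [MOD q] := fun hmod => by
  have hqP := (prime_dvd_sievingProd_iff hq).2 ⟨hqZ, hqM⟩
  exact hq.not_dvd_one (h ▸ Nat.dvd_gcd hqP ((dvd_add_classShift_iff hqP).2 hmod))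

/-- **The sifted primes.** -/
theorem exists_siftedTheta_ge : ∃ η : ℝ, 0 < η ∧ ∀ᶠ x : ℕ in atTop, ∀ M c : ℕ, 2 ∣ M →
    (∀ q : ℕ, q.Prime → (q : ℝ) < (x : ℝ) ^ (1 / 552 : ℝ) → ¬ q ∣ M → ¬ q ∣ c) →
      η * x / Real.log x ≤ siftedTheta x ((x : ℝ) ^ (1 / 552 : ℝ)) M c := by
  obtain ⟨B, C, hC, hBV⟩ := BombieriVinogradov.Summary.bombieri_vinogradov_theta 3
  obtain ⟨θ, hθ⟩ : ∃ θ : ℝ, θ = (Real.exp 17)⁻¹ * (Real.log 2 * 552) := ⟨_, rfl⟩
  have hθ0 : 0 < θ := hθ ▸ mul_pos (by positivity) (mul_pos (Real.log_pos one_lt_two) (by norm_num))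
  refine ⟨θ / 4, by positivity, ?_⟩
  filter_upwards [eventually_ge_atTop (2 ^ 552), eventually_ge_atTop 3,
    BombieriVinogradov.eventually_log_ge (max 1 (4 * C / θ)),
    BombieriVinogradov.eventually_log_pow_le B (show (0 : ℝ) < 1 / 6 by norm_num)]
    with x hx2 hx3 hlC hlB M c hM hc
  obtain ⟨Z, hZdef⟩ : ∃ Z : ℝ, Z = (x : ℝ) ^ (1 / 552 : ℝ) := ⟨_, rfl⟩
  rw [← hZdef] at hc ⊢
  obtain ⟨l, hl⟩ : ∃ l, l = Real.log x := ⟨_, rfl⟩
  rw [← hl] at hlC hlB ⊢
  have hl1 : 1 ≤ l := le_of_max_le_left hlC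
  have hx0 : (0 : ℝ) < x := Nat.cast_pos.2 (by omega)
  have hZ : 2 ≤ Z := by
    have h1 : ((2 : ℝ) ^ (552 : ℕ)) ≤ x := by exact_mod_cast hx2
    rw [hZdef, show (1 : ℝ) / 552 = ((552 : ℕ) : ℝ)⁻¹ by norm_num]
    refine le_of_eq_of_le ?_ (Real.rpow_le_rpow (by positivity) h1 (by positivity))
    exact (Real.pow_rpow_inv_natCast (by norm_num) (by norm_num)).symm
  have hlZ : Real.log Z = l / 552 := by
    rw [hZdef, Real.log_rpow hx0, hl]
    ring
  have hD : Z ^ (184 : ℝ) = (x : ℝ) ^ (1 / 3 : ℝ) := by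
    rw [hZdef, ← Real.rpow_mul hx0.le]
    norm_num
  obtain ⟨Q, hQ⟩ : ∃ Q, Q = ⌊Z ^ (184 : ℝ)⌋₊ := ⟨_, rfl⟩
  have hQle : (Q : ℝ) ≤ Real.sqrt x / l ^ B := by
    refine (hQ ▸ Nat.floor_le (Real.rpow_nonneg (by linarith) _) : (Q : ℝ) ≤ Z ^ (184 : ℝ)).trans ?_
    rw [hD, le_div_iff₀ (by positivity)]
    refine (mul_le_mul_of_nonneg_left hlB (by positivity)).trans (le_of_eq ?_)
    rw [← Real.rpow_add hx0, Real.sqrt_eq_rpow]
    norm_num
  have hcop : ∀ d ∈ (sievingProd Z M).divisors, c.Coprime d := fun d hd => by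
    by_contra h
    obtain ⟨q, hq, hqc, hqd⟩ := Nat.Prime.not_coprime_iff_dvd.1 h
    obtain ⟨h1, h2⟩ := (prime_dvd_sievingProd_iff hq).1 (hqd.trans (Nat.dvd_of_mem_divisors hd))
    exact hc q hq h1 h2 hqc
  have hrem : remSum (shiftSieve x Z M c hM) (Z ^ (184 : ℝ)) ≤ C * ((x : ℝ) / l ^ 3) := by
    refine le_trans ?_ (hl ▸ hBV x hx3 Q (hl ▸ hQle) (fun _ => x)
      (fun q => if c.Coprime q then c else 1)
      fun q _ => ⟨le_rfl, by split_ifs with h <;> [exact h; exact Nat.coprime_one_left q]⟩)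
    rw [remSum]
    refine le_trans (le_of_eq (sum_congr rfl fun d hd => ?_))
      (sum_le_sum_of_subset_of_nonneg (fun d hd => ?_) fun d _ _ => abs_nonneg _)
    · have hdP := Nat.dvd_of_mem_divisors (mem_filter.1 hd).1
      have h := shiftSieve_multSum (x := x) (c := c) hM hdP
      rw [if_pos (hcop d (mem_filter.1 hd).1), BoundingSieve.rem, h,
        show (shiftSieve x Z M c hM).nu d * (shiftSieve x Z M c hM).totalMass =
          (x : ℝ) / d.totient from by
            show invPhi d * (x : ℝ) = _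
            rw [invPhi_apply, inv_mul_eq_div]]
    · rw [mem_filter] at hd
      exact mem_Icc.2 ⟨Nat.pos_of_mem_divisors hd.1, hQ ▸ Nat.le_floor hd.2.le⟩
  have hpf : (shiftSieve x Z M c hM).prodPrimes.primeFactors = sievingPrimes Z M :=
    primeFactors_sievingProd Z M
  have hV : θ / l ≤ sieveProduct (shiftSieve x Z M c hM) := by
    have h := inv_mul_rpow_le_prod (Real.exp_pos 17) hZ
      (fun p hp => (prime_of_mem_sievingPrimes hp).two_le) (fun p hp => by
        refine (shiftSieve x Z M c hM).nu_lt_one_of_prime p (prime_of_mem_sievingPrimes hp) ?_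
        exact (prime_dvd_sievingProd_iff (prime_of_mem_sievingPrimes hp)).2
          (mem_sievingPrimes.1 hp).2) (phi_dimension (Z := Z) hM)
    rw [Real.rpow_one, hlZ] at h
    rw [sieveProduct, hpf]
    refine le_of_eq_of_le ?_ h
    rw [hθ]
    field_simp
  have he4 : (40 : ℝ) ≤ Real.exp 4 := by
    rw [show (4 : ℝ) = ((4 : ℕ) : ℝ) * 1 by norm_num, Real.exp_nat_mul]
    nlinarith [pow_le_pow_left₀ (by norm_num) Real.exp_one_gt_d9.le 4]
  have h := half_le_siftedSum (shiftSieve x Z M c hM) (K := Real.exp 17) (κ := 1) (β := 10)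
    (s := 184) (Nat.cast_nonneg x) (fun p hp => by
      rw [hpf] at hp
      exact (mem_sievingPrimes.1 hp).2.1) hZ zero_le_one (by norm_num) (by norm_num)
    (Real.one_le_exp (by norm_num)) (by norm_num) ?_ (by rw [hpf]; exact phi_dimension hM)
  · rw [shiftSieve_siftedSum hM] at h
    refine le_trans ?_ (show _ ≤ siftedTheta x Z M c from h)
    rw [show (shiftSieve x Z M c hM).totalMass = (x : ℝ) from rfl]
    have h1 : (x : ℝ) * (θ / l) ≤ x * sieveProduct (shiftSieve x Z M c hM) :=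
      mul_le_mul_of_nonneg_left hV hx0.le
    have h2 : C * ((x : ℝ) / l ^ 3) ≤ θ / 4 * x / l := by
      have h3 : 4 * C / θ ≤ l ^ 2 := (le_of_max_le_right hlC).trans (le_self_pow₀ hl1 two_ne_zero)
      rw [div_le_iff₀ hθ0] at h3
      rw [mul_div_assoc', div_le_div_iff₀ (by positivity) (by positivity)]
      have := mul_le_mul_of_nonneg_left h3 (show 0 ≤ (x : ℝ) * l by positivity)
      rw [pow_succ l 2]
      linarith
    have h4 : (x : ℝ) * (θ / l) = 4 * (θ / 4 * x / l) := by ring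
    linarith
  · rw [← Real.exp_nat_mul, show (20 : ℝ) * Real.exp ((10 : ℕ) : ℝ) *
      Real.exp (((10 : ℕ) : ℝ) * 17) * Real.exp (-184) = 20 * (Real.exp ((10 : ℕ) : ℝ) *
      Real.exp (((10 : ℕ) : ℝ) * 17) * Real.exp (-184)) by ring, ← Real.exp_add, ← Real.exp_add,
      show ((10 : ℕ) : ℝ) + ((10 : ℕ) : ℝ) * 17 + -184 = -4 by norm_num, Real.exp_neg,
      ← div_eq_mul_inv, div_le_iff₀ (Real.exp_pos _)]
    linarith

/-- The number of prime factors of a number without small ones. -/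
theorem pow_cardFactors_le {Z : ℝ} (hZ : 0 ≤ Z) {m : ℕ} (hm : m ≠ 0)
    (h : ∀ q : ℕ, q.Prime → q ∣ m → Z ≤ q) : Z ^ Ω m ≤ m := by
  have key : ∀ L : List ℕ, (∀ q ∈ L, Z ≤ (q : ℝ)) → Z ^ L.length ≤ ((L.prod : ℕ) : ℝ) := by
    intro L
    induction L with
    | nil => simp
    | cons a L ih =>
      intro hL
      rw [List.length_cons, List.prod_cons, pow_succ', Nat.cast_mul]
      exact mul_le_mul (hL a List.mem_cons_self) (ih fun q hq => hL q (List.mem_cons_of_mem a hq))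
        (pow_nonneg hZ _) (Nat.cast_nonneg a)
  have h1 := key m.primeFactorsList fun q hq =>
    h q (Nat.prime_of_mem_primeFactorsList hq) (Nat.dvd_of_mem_primeFactorsList hq)
  rwa [Nat.prod_primeFactorsList hm, ← ArithmeticFunction.cardFactors_apply] at h1

theorem cardFactors_lt {x m k r : ℕ} (hx : 1 < x) (hm : m ≠ 0) (hmx : (m : ℝ) < (x : ℝ) ^ r)
    (hk : 0 < k) (h : ∀ q : ℕ, q.Prime → q ∣ m → (x : ℝ) ^ (1 / (k : ℝ)) ≤ q) :
    Ω m < k * r := by
  have hx0 : (0 : ℝ) ≤ x := Nat.cast_nonneg x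
  have h1 := pow_le_pow_left₀ (pow_nonneg (Real.rpow_nonneg hx0 _) _)
    (pow_cardFactors_le (Real.rpow_nonneg hx0 _) hm h) k
  rw [← pow_mul, mul_comm (Ω m) k, pow_mul, one_div, Real.rpow_inv_natCast_pow hx0 hk.ne'] at h1
  have h2 : (x : ℝ) ^ Ω m < (x : ℝ) ^ (k * r) := by
    rw [mul_comm, pow_mul]
    exact h1.trans_lt (pow_lt_pow_left₀ hmx (Nat.cast_nonneg m) hk.ne')
  exact (pow_lt_pow_iff_right₀ (Nat.one_lt_cast.2 hx)).1 h2

theorem sum_log_dvd_le {N : ℕ} (hN : N ≠ 0) {S : Finset ℕ} (hS : ∀ p ∈ S, p.Prime ∧ p ∣ N) :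
    ∑ p ∈ S, Real.log p ≤ Real.log N := by
  rw [← Real.log_prod fun p hp => Nat.cast_ne_zero.2 (hS p hp).1.ne_zero, ← Nat.cast_prod]
  refine Real.log_le_log (Nat.cast_pos.2 (prod_pos fun p hp => (hS p hp).1.pos)) (Nat.cast_le.2 ?_)
  exact Nat.le_of_dvd (Nat.pos_of_ne_zero hN)
    (prod_primes_dvd N (fun p hp => (hS p hp).1.prime) fun p hp => (hS p hp).2)

/-- From the weight `log p` to the count. -/
theorem card_ge_of_sum_log {x : ℕ} {S A : Finset ℕ} {η E : ℝ} (hx : 2 ≤ x) (hS : S ⊆ Icc 1 x)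
    (hA : S ⊆ A) (hE : E ≤ η * x / Real.log x / 2)
    (h : η * x / Real.log x - E ≤ ∑ p ∈ S, Real.log p) :
    η / 2 * x / Real.log x ^ 2 ≤ #A := by
  have hl : 0 < Real.log x := Real.log_pos (Nat.one_lt_cast.2 (by omega))
  have h1 : ∑ p ∈ S, Real.log p ≤ #S * Real.log x :=
    (sum_le_card_nsmul _ _ _ fun p hp => Real.log_le_log
      (Nat.cast_pos.2 (mem_Icc.1 (hS hp)).1) (Nat.cast_le.2 (mem_Icc.1 (hS hp)).2)).trans
      (le_of_eq (nsmul_eq_mul _ _))
  have h2 : (#S : ℝ) * Real.log x ≤ #A * Real.log x :=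
    mul_le_mul_of_nonneg_right (Nat.cast_le.2 (card_le_card hA)) hl.le
  rw [div_le_iff₀ (by positivity), sq]
  have h3 : η * x / Real.log x / 2 * Real.log x ≤ #A * Real.log x * Real.log x :=
    mul_le_mul_of_nonneg_right (by linarith) hl.le
  rw [div_right_comm (η * x), div_mul_cancel₀ _ hl.ne'] at h3
  linarith

theorem eventually_error_le {η : ℝ} (hη : 0 < η) (E : ℕ) :
    ∀ᶠ x : ℕ in atTop, (E : ℝ) * Real.log x ≤ η * x / Real.log x := by
  filter_upwards [BombieriVinogradov.eventually_log_pow_le 2 (show (0 : ℝ) < 1 / 2 by norm_num),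
    eventually_ge_atTop (max 2 ⌈((E : ℝ) / η) ^ 2⌉₊)] with x h1 hx
  have hx2 : (2 : ℝ) ≤ x := Nat.ofNat_le_cast.2 (le_of_max_le_left hx)
  have hl : 0 < Real.log x := Real.log_pos (by linarith)
  rw [le_div_iff₀ hl, mul_assoc, ← sq]
  refine (mul_le_mul_of_nonneg_left h1 (Nat.cast_nonneg E)).trans ?_
  rw [← Real.sqrt_eq_rpow]
  have h2 : (E : ℝ) / η ≤ Real.sqrt x :=
    Real.le_sqrt_of_sq_le ((Nat.le_ceil _).trans (Nat.cast_le.2 (le_of_max_le_right hx)))
  rw [div_le_iff₀ hη] at h2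
  nlinarith [Real.mul_self_sqrt (show (0 : ℝ) ≤ x by linarith), Real.sqrt_nonneg (x : ℝ)]

/-- **Rényi's theorem.** -/
theorem exists_renyi_goldbach : ∃ η : ℝ, 0 < η ∧ ∀ᶠ N : ℕ in atTop, Even N →
    η * N / Real.log N ^ 2 ≤ (((range N).filter fun p => p.Prime ∧ 1 < N - p ∧
      Ω (N - p) ≤ 551 ∧ ∀ q ∈ (N - p).primeFactors, N ≤ q ^ 552).card : ℝ) := by
  obtain ⟨η, hη, h⟩ := exists_siftedTheta_ge
  refine ⟨η / 2, by positivity, ?_⟩
  filter_upwards [h, eventually_error_le (half_pos hη) 2, eventually_ge_atTop 4]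
    with N hN herr hN4 heven
  obtain ⟨Z, hZ⟩ : ∃ Z : ℝ, Z = (N : ℝ) ^ (1 / 552 : ℝ) := ⟨_, rfl⟩
  rw [← hZ] at hN
  have h2N : 2 ∣ N := heven.two_dvd
  have hth := hN N N h2N fun q _ _ hq => hq
  obtain ⟨S, hS⟩ : ∃ S, S = ((Icc 1 N).filter fun p : ℕ => p.Prime ∧ (sievingProd Z N).Coprime
      (p + classShift Z N N)).filter fun p => ¬ p ∣ N ∧ p + 1 ≠ N := ⟨_, rfl⟩
  refine card_ge_of_sum_log (E := 2 * Real.log N) (S := S) (by omega)
    (hS ▸ (filter_subset _ _).trans (filter_subset _ _)) (fun p hp => ?_) ?_ ?_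
  · rw [hS, mem_filter, mem_filter, mem_Icc] at hp
    obtain ⟨⟨⟨hp1, hpN⟩, hpp, hcop⟩, hdvd, hne⟩ := hp
    have hlt : p < N := lt_of_le_of_ne hpN fun e => hdvd (e ▸ dvd_rfl)
    have hfac : ∀ q : ℕ, q.Prime → q ∣ N - p → Z ≤ q := fun q hq hqd => by
      by_contra hlt'
      have hqN : ¬ q ∣ N := fun hqN => hdvd (by
        have h1 := Nat.dvd_sub hqN hqd
        rw [Nat.sub_sub_self hpN, Nat.prime_dvd_prime_iff_eq hq hpp] at h1
        exact h1 ▸ hqN)
      exact avoid_of_coprime hcop hq (not_le.1 hlt') hqN ((Nat.modEq_iff_dvd' hpN).2 hqd)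
    refine mem_filter.2 ⟨mem_range.2 hlt, hpp, by omega, ?_, fun q hq => ?_⟩
    · have hm : ((N - p : ℕ) : ℝ) < (N : ℝ) ^ 1 := by
        rw [pow_one, Nat.cast_lt]
        omega
      have := cardFactors_lt (x := N) (k := 552) (by omega) (by omega) hm (by norm_num)
        (by simpa [hZ] using hfac)
      omega
    · have hqp := Nat.prime_of_mem_primeFactors hq
      have h1 := pow_le_pow_left₀ (hZ ▸ Real.rpow_nonneg (Nat.cast_nonneg N) _)
        (hfac q hqp (Nat.dvd_of_mem_primeFactors hq)) 552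
      rw [hZ, show (1 : ℝ) / 552 = ((552 : ℕ) : ℝ)⁻¹ by norm_num,
        Real.rpow_inv_natCast_pow (Nat.cast_nonneg N) (by norm_num)] at h1
      exact_mod_cast h1
  · push_cast at herr
    exact herr.trans (le_of_eq (by ring))
  · rw [siftedTheta, ← sum_filter_add_sum_filter_not _ (fun p => ¬ p ∣ N ∧ p + 1 ≠ N), ← hS] at hth
    refine le_trans ?_ (show η * N / Real.log N - 2 * Real.log N ≤ ∑ p ∈ S, Real.log p from ?_)
    · exact le_rfl
    refine sub_le_iff_le_add.2 (hth.trans (add_le_add le_rfl ?_))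
    refine le_trans (sum_le_sum_of_subset_of_nonneg (t := (N.primeFactors) ∪ {N - 1})
      (fun p hp => ?_) fun p _ _ => Real.log_natCast_nonneg p) ?_
    · simp only [mem_filter, not_and_or, not_not] at hp
      rw [mem_union, mem_singleton, Nat.mem_primeFactors]
      rcases hp.2 with h1 | h1
      · exact Or.inl ⟨hp.1.2.1, h1, by omega⟩
      · exact Or.inr (by omega)
    · refine le_trans (le_add_of_nonneg_right (sum_nonneg fun p _ => Real.log_natCast_nonneg p) :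
        _ ≤ (∑ p ∈ N.primeFactors ∪ {N - 1}, Real.log p) +
          ∑ p ∈ N.primeFactors ∩ {N - 1}, Real.log p) ?_
      rw [sum_union_inter, sum_singleton, two_mul]
      refine add_le_add (sum_log_dvd_le (by omega) fun p hp =>
        ⟨Nat.prime_of_mem_primeFactors hp, Nat.dvd_of_mem_primeFactors hp⟩) ?_
      exact Real.log_le_log (Nat.cast_pos.2 (by omega)) (Nat.cast_le.2 (Nat.sub_le N 1))

/-- **Almost prime neighbours of primes.** -/
theorem exists_renyi_shift {h : ℕ} (hh : Even h) (hh0 : 0 < h) : ∃ η : ℝ, 0 < η ∧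
    ∀ᶠ x : ℕ in atTop, η * x / Real.log x ^ 2 ≤
      (((Icc 1 x).filter fun p => p.Prime ∧ Ω (p + h) ≤ 552 ∧
        ∀ q ∈ (p + h).primeFactors, x ≤ q ^ 552).card : ℝ) := by
  obtain ⟨η, hη, hev⟩ := exists_siftedTheta_ge
  refine ⟨η / 2, by positivity, ?_⟩
  filter_upwards [hev, eventually_error_le (half_pos hη) h,
    eventually_ge_atTop (max 2 ((2 * h + 2) ^ 2)), eventually_ge_atTop (2 ^ 1104)]
    with x hx herr hxh hx1104
  obtain ⟨Z, hZ⟩ : ∃ Z : ℝ, Z = (x : ℝ) ^ (1 / 552 : ℝ) := ⟨_, rfl⟩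
  rw [← hZ] at hx
  obtain ⟨c, hc⟩ : ∃ c, c = (sievingProd Z h - 1) * h := ⟨_, rfl⟩
  have hP := sievingProd_pos Z h
  have hth := hx h c hh.two_dvd fun q hq hqZ hqh hqc => by
    rw [hc] at hqc
    rcases hq.dvd_mul.1 hqc with h1 | h1
    · have h2 := (prime_dvd_sievingProd_iff hq).2 ⟨hqZ, hqh⟩
      have h3 := Nat.dvd_sub h2 h1
      rw [Nat.sub_sub_self hP] at h3
      exact hq.not_dvd_one h3
    · exact hqh h1
  have hx2 : 2 ≤ x := le_of_max_le_left hxh
  have hhx : h ≤ x := (show h ≤ 2 * h + 2 by omega).trans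
    ((Nat.le_self_pow two_ne_zero _).trans (le_of_max_le_right hxh))
  obtain ⟨S, hS⟩ : ∃ S, S = ((Icc 1 x).filter fun p : ℕ => p.Prime ∧ (sievingProd Z h).Coprime
      (p + classShift Z h c)).filter fun p => h < p := ⟨_, rfl⟩
  refine card_ge_of_sum_log (E := h * Real.log x) (S := S) hx2
    (hS ▸ (filter_subset _ _).trans (filter_subset _ _)) (fun p hp => ?_) ?_ ?_
  · rw [hS, mem_filter, mem_filter, mem_Icc] at hp
    obtain ⟨⟨⟨hp1, hpx⟩, hpp, hcop⟩, hhp⟩ := hp
    have hfac : ∀ q : ℕ, q.Prime → q ∣ p + h → Z ≤ q := fun q hq hqd => by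
      by_contra hlt
      have hqh : ¬ q ∣ h := fun hqh => by
        have h1 := (Nat.dvd_add_left hqh).1 hqd
        rw [Nat.prime_dvd_prime_iff_eq hq hpp] at h1
        have := Nat.le_of_dvd hh0 hqh
        omega
      refine avoid_of_coprime hcop hq (not_le.1 hlt) hqh ?_
      have h2 := (prime_dvd_sievingProd_iff hq).2 ⟨not_le.1 hlt, hqh⟩
      rw [hc, ← ZMod.natCast_eq_natCast_iff]
      have h3 : ((p + h : ℕ) : ZMod q) = 0 := (ZMod.natCast_eq_zero_iff _ _).2 hqd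
      have h4 : ((sievingProd Z h : ℕ) : ZMod q) = 0 := (ZMod.natCast_eq_zero_iff _ _).2 h2
      push_cast [Nat.cast_sub (show 1 ≤ sievingProd Z h from hP)] at h3 ⊢
      rw [h4, zero_sub, neg_one_mul]
      exact eq_neg_of_add_eq_zero_left h3
    refine mem_filter.2 ⟨mem_Icc.2 ⟨hp1, hpx⟩, hpp, ?_, fun q hq => ?_⟩
    · by_contra hlt
      have h1 := pow_le_pow_right₀ (hZ ▸ Real.one_le_rpow (Nat.one_le_cast.2 (by omega))
        (by norm_num)) (show 553 ≤ Ω (p + h) by omega)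
      have h2 := h1.trans (pow_cardFactors_le (hZ ▸ Real.rpow_nonneg (Nat.cast_nonneg x) _)
        (by omega) hfac)
      have hZ0 : (0 : ℝ) ≤ Z := hZ ▸ Real.rpow_nonneg (Nat.cast_nonneg x) _
      have e : Z ^ 552 = (x : ℝ) := by
        rw [hZ, show (1 : ℝ) / 552 = ((552 : ℕ) : ℝ)⁻¹ by norm_num,
          Real.rpow_inv_natCast_pow (Nat.cast_nonneg x) (by norm_num)]
      have hZ4 : (4 : ℝ) ≤ Z := by
        refine le_of_pow_le_pow_left₀ (show (552 : ℕ) ≠ 0 by norm_num) hZ0 ?_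
        rw [e]
        exact_mod_cast (show 4 ^ 552 = 2 ^ 1104 by rw [show (4 : ℕ) = 2 ^ 2 by norm_num,
          ← pow_mul]).trans_le hx1104
      rw [pow_succ, e] at h2
      have h3 : ((p + h : ℕ) : ℝ) ≤ 2 * x := by exact_mod_cast (show p + h ≤ 2 * x by omega)
      have hxpos : (0 : ℝ) < x := Nat.cast_pos.2 (by omega)
      nlinarith
    · have hqp := Nat.prime_of_mem_primeFactors hq
      have h1 := pow_le_pow_left₀ (hZ ▸ Real.rpow_nonneg (Nat.cast_nonneg x) _)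
        (hfac q hqp (Nat.dvd_of_mem_primeFactors hq)) 552
      rw [hZ, show (1 : ℝ) / 552 = ((552 : ℕ) : ℝ)⁻¹ by norm_num,
        Real.rpow_inv_natCast_pow (Nat.cast_nonneg x) (by norm_num)] at h1
      exact_mod_cast h1
  · exact herr.trans (le_of_eq (by ring))
  · rw [siftedTheta, ← sum_filter_add_sum_filter_not _ (fun p => h < p), ← hS] at hth
    refine sub_le_iff_le_add.2 (hth.trans (add_le_add le_rfl ?_))
    refine le_trans (sum_le_card_nsmul _ _ (Real.log x) fun p hp => ?_) ?_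
    · simp only [mem_filter, mem_Icc] at hp
      exact Real.log_le_log (Nat.cast_pos.2 hp.1.1.1) (Nat.cast_le.2 hp.1.1.2)
    · rw [nsmul_eq_mul]
      refine mul_le_mul_of_nonneg_right (Nat.cast_le.2 ((card_le_card (t := Icc 1 h)
        fun p hp => ?_).trans (by simp))) (Real.log_natCast_nonneg x)
      simp only [mem_filter, mem_Icc] at hp ⊢
      omega

end FA.CombinatorialSieve
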