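import Fermat.Agent.CombinatorialSieve.ShiftedPrimes
import Fermat.Agent.GoldbachSchnirelmann.Pairs

/-!
# Brun's theorem: sums of two almost primes

The sieve of dimension 2 of `n (N - n)`, with the level `N ^ (1/3)`.
-/

set_option autoImplicit false

noncomputable section

namespace FA.CombinatorialSieve

open Finset Filter
open FA.GoldbachSchnirelmann (pairSieve pairSieve_rem pairNu pairNu_apply card_pairRoots_prime rho)
open scoped Topology ArithmeticFunction.Omega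

theorem pairNu_dimension {a : ℤ} (ha : (2 : ℤ) ∣ a) (Z : ℝ) :
    DimensionBound (sievingPrimes Z 1) (pairNu a) Z 2 (Real.exp 34) := by
  have e : (11 : ℝ) * 2 + 12 = 34 := by norm_num
  rw [← e]
  refine dimensionBound_of_le zero_le_two (by norm_num) (fun p hp =>
    ⟨prime_of_mem_sievingPrimes hp, (mem_sievingPrimes.1 hp).2.1⟩) (fun p hp => ?_) fun p hp => ?_
  all_goals
    have hpp := prime_of_mem_sievingPrimes hp
    have h2 : (2 : ℝ) ≤ p := Nat.ofNat_le_cast.2 hpp.two_le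
    have h3 : ¬ (p : ℤ) ∣ a → (3 : ℝ) ≤ p := fun hna => by
      have : p ≠ 2 := fun h => hna (by rw [h]; exact ha)
      exact_mod_cast (show 3 ≤ p by linarith [lt_of_le_of_ne hpp.two_le (Ne.symm this)])
    rw [pairNu_apply, card_pairRoots_prime a hpp, rho]
    split_ifs with h
  · rw [Nat.cast_one]
    exact ⟨by positivity, (div_lt_one (by linarith)).2 (by linarith)⟩
  · have := h3 h
    exact ⟨by positivity, (div_lt_one (by linarith)).2 (by push_cast; linarith)⟩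
  · rw [Nat.cast_one, show (1 : ℝ) / p / (1 - 1 / (p : ℝ)) = 1 / ((p : ℝ) - 1) by field_simp,
      show (2 : ℝ) / p + 12 / (p : ℝ) ^ 2 = (2 * (p : ℝ) + 12) / (p : ℝ) ^ 2 by field_simp,
      div_le_div_iff₀ (by linarith) (by positivity)]
    nlinarith
  · have := h3 h
    rw [Nat.cast_ofNat, show (2 : ℝ) / p / (1 - 2 / (p : ℝ)) = 2 / ((p : ℝ) - 2) by
        field_simp [show (p : ℝ) - 2 ≠ 0 by linarith],
      show (2 : ℝ) / p + 12 / (p : ℝ) ^ 2 = (2 * (p : ℝ) + 12) / (p : ℝ) ^ 2 by field_simp,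
      div_le_div_iff₀ (by linarith) (by positivity)]
    nlinarith

theorem primeFactors_primorial_ceil (Z : ℝ) :
    (primorial (⌈Z⌉₊ - 1)).primeFactors = sievingPrimes Z 1 := by
  ext q
  rw [Nat.mem_primeFactors_of_ne_zero (squarefree_primorial _).ne_zero, mem_sievingPrimes,
    ← Nat.lt_ceil]
  constructor
  · rintro ⟨hq, hqd⟩
    rw [hq.dvd_primorial_iff] at hqd
    exact ⟨hq, by have := hq.two_le; omega, hq.not_dvd_one⟩
  · rintro ⟨hq, hlt, -⟩
    exact ⟨hq, hq.dvd_primorial_iff.2 (by omega)⟩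

theorem pairSieve_siftedSum (a : ℤ) (X z : ℕ) (ha : (2 : ℤ) ∣ a) :
    (pairSieve a X z ha).siftedSum =
      ((Ioc 0 X).filter fun n : ℕ => (primorial z).Coprime ((n : ℤ) * (n + a)).natAbs).card := by
  rw [BoundingSieve.siftedSum, card_eq_sum_card_fiberwise
    (f := fun n : ℕ => ((n : ℤ) * (n + a)).natAbs)
    (t := (Ioc 0 X).image fun n : ℕ => ((n : ℤ) * (n + a)).natAbs)
    (fun n hn => mem_coe.2 (mem_image_of_mem _ (mem_filter.1 (mem_coe.1 hn)).1))]
  push_cast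
  refine sum_congr rfl fun m _ => ?_
  rw [filter_filter]
  show (if (primorial z).Coprime m then
    (((Ioc 0 X).filter fun n : ℕ => ((n : ℤ) * (n + a)).natAbs = m).card : ℝ) else 0) = _
  split_ifs with h
  · congr 2
    exact filter_congr fun n _ => ⟨fun e => ⟨e ▸ h, e⟩, fun e => e.2⟩
  · rw [eq_comm, Nat.cast_eq_zero, card_eq_zero, filter_eq_empty_iff]
    rintro n _ ⟨h1, h2⟩
    exact h (h2 ▸ h1)

/-- **Brun's theorem.** -/
theorem exists_brun_goldbach : ∃ η : ℝ, 0 < η ∧ ∀ᶠ N : ℕ in atTop, Even N →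
    η * N / Real.log N ^ 2 ≤ (((Ioo 0 N).filter fun n => Ω n ≤ 1088 ∧ Ω (N - n) ≤ 1088 ∧
      ∀ q ∈ (n * (N - n)).primeFactors, N ≤ q ^ 1089).card : ℝ) := by
  obtain ⟨θ, hθ⟩ : ∃ θ : ℝ, θ = (Real.exp 34)⁻¹ * (Real.log 2 * 1089) ^ (2 : ℕ) := ⟨_, rfl⟩
  have hθ0 : 0 < θ := hθ ▸ mul_pos (by positivity)
    (pow_pos (mul_pos (Real.log_pos one_lt_two) (by norm_num)) 2)
  refine ⟨θ / 4, by positivity, ?_⟩
  filter_upwards [eventually_ge_atTop (2 ^ 2178),
    BombieriVinogradov.eventually_log_pow_le 2 (show (0 : ℝ) < 1 / 6 by norm_num),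
    eventually_ge_atTop (max 4 ⌈(4 / θ) ^ (6 : ℕ)⌉₊)] with N hN2 hlog hN6 heven
  obtain ⟨Z, hZdef⟩ : ∃ Z : ℝ, Z = (N : ℝ) ^ (1 / 1089 : ℝ) := ⟨_, rfl⟩
  obtain ⟨a, ha'⟩ : ∃ a : ℤ, a = -(N : ℤ) := ⟨_, rfl⟩
  have ha : (2 : ℤ) ∣ a := ha' ▸ (Int.natCast_dvd_natCast.2 heven.two_dvd).neg_right
  obtain ⟨z, hz⟩ : ∃ z, z = ⌈Z⌉₊ - 1 := ⟨_, rfl⟩
  have hN4 : 4 ≤ N := le_of_max_le_left hN6
  have hx0 : (0 : ℝ) < N := Nat.cast_pos.2 (by omega)
  have hl : 0 < Real.log N := Real.log_pos (Nat.one_lt_cast.2 (by omega))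
  have hZ0 : 0 ≤ Z := hZdef ▸ Real.rpow_nonneg hx0.le _
  have e : Z ^ 1089 = (N : ℝ) := by
    rw [hZdef, show (1 : ℝ) / 1089 = ((1089 : ℕ) : ℝ)⁻¹ by norm_num,
      Real.rpow_inv_natCast_pow hx0.le (by norm_num)]
  have hZ4 : (4 : ℝ) ≤ Z := by
    refine le_of_pow_le_pow_left₀ (show (1089 : ℕ) ≠ 0 by norm_num) hZ0 ?_
    rw [e]
    exact_mod_cast (show 4 ^ 1089 = 2 ^ 2178 by rw [show (4 : ℕ) = 2 ^ 2 by norm_num,
      ← pow_mul]).trans_le hN2
  have hlZ : Real.log Z = Real.log N / 1089 := by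
    rw [hZdef, Real.log_rpow hx0]
    ring
  have hD : Z ^ (363 : ℝ) = (N : ℝ) ^ (1 / 3 : ℝ) := by
    rw [hZdef, ← Real.rpow_mul hx0.le]
    norm_num
  have hpf : (pairSieve a N z ha).prodPrimes.primeFactors = sievingPrimes Z 1 :=
    hz ▸ primeFactors_primorial_ceil Z
  have hrem : remSum (pairSieve a N z ha) (Z ^ (363 : ℝ)) ≤ (N : ℝ) ^ (2 / 3 : ℝ) := by
    rw [remSum]
    refine (sum_le_card_nsmul _ _ (Z ^ (363 : ℝ)) fun d hd => ?_).trans ?_
    · rw [mem_filter] at hd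
      exact (pairSieve_rem N z ha hd.1).trans hd.2.le
    rw [nsmul_eq_mul, show (2 : ℝ) / 3 = 1 / 3 + 1 / 3 by norm_num, Real.rpow_add hx0, hD]
    refine mul_le_mul_of_nonneg_right ?_ (Real.rpow_nonneg hx0.le _)
    refine le_trans ?_ (Nat.floor_le (Real.rpow_nonneg hx0.le _))
    refine Nat.cast_le.2 ((card_le_card (t := Icc 1 ⌊(N : ℝ) ^ (1 / 3 : ℝ)⌋₊) fun d hd => ?_).trans
      (Nat.card_Icc 1 _).le)
    rw [mem_filter] at hd
    exact mem_Icc.2 ⟨Nat.pos_of_mem_divisors hd.1, Nat.le_floor hd.2.le⟩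
  have hV : θ / Real.log N ^ 2 ≤ sieveProduct (pairSieve a N z ha) := by
    have h := inv_mul_rpow_le_prod (Real.exp_pos 34) (show (2 : ℝ) ≤ Z by linarith)
      (fun p hp => (prime_of_mem_sievingPrimes hp).two_le) (fun p hp => by
        refine (pairSieve a N z ha).nu_lt_one_of_prime p (prime_of_mem_sievingPrimes hp) ?_
        exact Nat.dvd_of_mem_primeFactors (hpf ▸ hp)) (pairNu_dimension ha Z)
    rw [hlZ, show (2 : ℝ) = ((2 : ℕ) : ℝ) by norm_num, Real.rpow_natCast, Nat.cast_ofNat] at h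
    rw [sieveProduct, hpf]
    refine le_of_eq_of_le ?_ h
    rw [hθ, div_div_eq_mul_div, div_pow]
    ring
  have he4 : (40 : ℝ) ≤ Real.exp 4 := by
    rw [show (4 : ℝ) = ((4 : ℕ) : ℝ) * 1 by norm_num, Real.exp_nat_mul]
    nlinarith [pow_le_pow_left₀ (by norm_num) Real.exp_one_gt_d9.le 4]
  have h := half_le_siftedSum (pairSieve a N z ha) (K := Real.exp 34) (κ := 2) (β := 19) (Z := Z)
    (s := 363) (Nat.cast_nonneg N) (fun p hp => by
      rw [hpf] at hp
      exact (mem_sievingPrimes.1 hp).2.1) (by linarith) zero_le_two (by norm_num) (by norm_num)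
    (Real.one_le_exp (by norm_num)) (by norm_num) ?_ (by rw [hpf]; exact pairNu_dimension ha Z)
  · rw [pairSieve_siftedSum, show (pairSieve a N z ha).totalMass = (N : ℝ) from rfl] at h
    have h1 := mul_le_mul_of_nonneg_left hV hx0.le
    have h2 : (N : ℝ) ^ (2 / 3 : ℝ) ≤ θ / 4 * N / Real.log N ^ 2 := by
      rw [le_div_iff₀ (pow_pos hl 2)]
      refine (mul_le_mul_of_nonneg_left hlog (Real.rpow_nonneg hx0.le _)).trans ?_
      rw [← Real.rpow_add hx0, show (2 : ℝ) / 3 + 1 / 6 = 1 + -(1 / 6) by norm_num,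
        Real.rpow_add hx0, Real.rpow_one, mul_comm (θ / 4)]
      refine mul_le_mul_of_nonneg_left ?_ hx0.le
      have h3 : (4 / θ) ^ (6 : ℕ) ≤ (N : ℝ) :=
        (Nat.le_ceil _).trans (Nat.cast_le.2 (le_of_max_le_right hN6))
      have h4 : 4 / θ ≤ (N : ℝ) ^ (1 / 6 : ℝ) := by
        rw [show (1 : ℝ) / 6 = ((6 : ℕ) : ℝ)⁻¹ by norm_num]
        exact le_of_eq_of_le (Real.pow_rpow_inv_natCast (by positivity) (by norm_num)).symm
          (Real.rpow_le_rpow (by positivity) h3 (by positivity))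
      rw [Real.rpow_neg hx0.le, inv_le_comm₀ (by positivity) (by positivity), inv_div]
      exact h4
    refine le_trans (show θ / 4 * N / Real.log N ^ 2 ≤ _ from ?_) (Nat.cast_le.2 (card_le_card
      (s := (Ioc 0 N).filter fun n : ℕ => (primorial z).Coprime ((n : ℤ) * (n + a)).natAbs)
      fun n hn => ?_))
    · have h5 : (N : ℝ) * (θ / Real.log N ^ 2) = 4 * (θ / 4 * N / Real.log N ^ 2) := by ring
      linarith
    rw [mem_filter, mem_Ioc, ha', ← sub_eq_add_neg, Int.natAbs_mul, Int.natAbs_natCast] at hn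
    obtain ⟨⟨hn0, hnN⟩, hcop⟩ := hn
    have hab : ((n : ℤ) - N).natAbs = N - n := by omega
    rw [hab] at hcop
    have hfac : ∀ q : ℕ, q.Prime → q ∣ n * (N - n) → Z ≤ q := fun q hq hqd => by
      by_contra hlt
      have h5 := Nat.lt_ceil.2 (not_le.1 hlt)
      exact hq.not_dvd_one (hcop ▸ Nat.dvd_gcd (hq.dvd_primorial_iff.2 (by omega)) hqd)
    have hlt : n < N := lt_of_le_of_ne hnN fun he => by
      have h5 := hfac 2 Nat.prime_two (by simp [he])
      push_cast at h5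
      linarith
    have hfin : ∀ m : ℕ, m ≠ 0 → m < N → (∀ q : ℕ, q.Prime → q ∣ m → q ∣ n * (N - n)) →
        Ω m ≤ 1088 := fun m hm hmN hsub => by
      have := cardFactors_lt (x := N) (m := m) (k := 1089) (r := 1) (by omega) hm
        (by rw [pow_one]; exact_mod_cast hmN) (by norm_num)
        (fun q hq hqd => by simpa [hZdef] using hfac q hq (hsub q hq hqd))
      omega
    refine mem_filter.2 ⟨mem_Ioo.2 ⟨hn0, hlt⟩, hfin n (by omega) hlt fun q _ hq => hq.mul_right _,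
      hfin (N - n) (by omega) (by omega) fun q _ hq => hq.mul_left _, fun q hq => ?_⟩
    have h5 := pow_le_pow_left₀ hZ0 (hfac q (Nat.prime_of_mem_primeFactors hq)
      (Nat.dvd_of_mem_primeFactors hq)) 1089
    rw [e] at h5
    exact_mod_cast h5
  · rw [← Real.exp_nat_mul, show (20 : ℝ) * Real.exp ((19 : ℕ) : ℝ) *
      Real.exp (((10 : ℕ) : ℝ) * 34) * Real.exp (-363) = 20 * (Real.exp ((19 : ℕ) : ℝ) *
      Real.exp (((10 : ℕ) : ℝ) * 34) * Real.exp (-363)) by ring, ← Real.exp_add, ← Real.exp_add,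
      show ((19 : ℕ) : ℝ) + ((10 : ℕ) : ℝ) * 34 + -363 = -4 by norm_num, Real.exp_neg,
      ← div_eq_mul_inv, div_le_iff₀ (Real.exp_pos _)]
    linarith

end FA.CombinatorialSieve
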