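import Fermat.Agent.CombinatorialSieve.Weights
import Mathlib.Analysis.SpecialFunctions.Pow.Real
import Mathlib.Analysis.SpecificLimits.Basic
import Mathlib.Analysis.Complex.ExponentialBounds

/-!
# The fundamental lemma

If `∏_{w ≤ p < Z} (1 - x p)⁻¹ ≤ K (log Z / log w) ^ κ` (dimension `κ`), `β ≥ 9 κ + 1` and the
level is `Z ^ s` with `s ≥ β`, the defect of the beta sieve is at most
`20 e ^ β K ^ 10 e ^ (-s)` times the product.
-/

set_option autoImplicit false

noncomputable section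

namespace FA.CombinatorialSieve

open Finset

/-- `∏_{w ≤ p} (1 - x p)⁻¹ ≤ K (log Z / log w) ^ κ` for `2 ≤ w ≤ Z`. -/
def DimensionBound (T : Finset ℕ) (x : ℕ → ℝ) (Z κ K : ℝ) : Prop :=
  ∀ w : ℝ, 2 ≤ w → w ≤ Z →
    ∏ p ∈ T.filter (fun p : ℕ => w ≤ p), (1 - x p)⁻¹ ≤ K * (Real.log Z / Real.log w) ^ κ

/-- `n! e_n ≤ (∑ f) ^ n`. -/
theorem factorial_mul_esymm_le {T : Finset ℕ} {f : ℕ → ℝ} (hf : ∀ p ∈ T, 0 ≤ f p) (n : ℕ) :
    (n.factorial : ℝ) * ∑ U ∈ T.powersetCard n, ∏ p ∈ U, f p ≤ (∑ p ∈ T, f p) ^ n := by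
  classical
  induction T using Finset.induction_on generalizing n with
  | empty => cases n <;> simp [powersetCard_eq_empty.2]
  | insert a T ha ih =>
    have hfa : 0 ≤ f a := hf a (mem_insert_self a T)
    have hfT : ∀ p ∈ T, 0 ≤ f p := fun p hp => hf p (mem_insert_of_mem hp)
    have hS : 0 ≤ ∑ p ∈ T, f p := sum_nonneg hfT
    cases n with
    | zero => simp
    | succ m =>
      have hbin : ∀ j : ℕ, (∑ p ∈ T, f p) ^ (j + 1) + (j + 1) * f a * (∑ p ∈ T, f p) ^ j ≤
          (f a + ∑ p ∈ T, f p) ^ (j + 1) := by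
        intro j
        induction j with
        | zero => simp [add_comm]
        | succ j hj =>
          rw [pow_succ (f a + ∑ p ∈ T, f p) (j + 1)]
          refine le_trans ?_ (mul_le_mul_of_nonneg_right hj (add_nonneg hfa hS))
          have h0 : 0 ≤ ((j : ℝ) + 1) * f a * (∑ p ∈ T, f p) ^ j * f a := by positivity
          push_cast
          rw [pow_succ (∑ p ∈ T, f p) (j + 1), pow_succ (∑ p ∈ T, f p) j]
          linarith
      rw [powersetCard_succ_insert ha, sum_union, sum_image, sum_insert ha]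
      · refine le_trans ?_ (hbin m)
        rw [mul_add]
        refine add_le_add (ih hfT (m + 1)) ?_
        have e : ∑ U ∈ T.powersetCard m, ∏ p ∈ insert a U, f p =
            f a * ∑ U ∈ T.powersetCard m, ∏ p ∈ U, f p := by
          rw [mul_sum]
          exact sum_congr rfl fun U hU => prod_insert fun h => ha ((mem_powersetCard.1 hU).1 h)
        rw [e, Nat.factorial_succ]
        push_cast
        rw [show ((m : ℝ) + 1) * (m.factorial : ℝ) * (f a * ∑ U ∈ T.powersetCard m, ∏ p ∈ U, f p) =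
          ((m : ℝ) + 1) * f a * ((m.factorial : ℝ) * ∑ U ∈ T.powersetCard m, ∏ p ∈ U, f p) by ring]
        exact mul_le_mul_of_nonneg_left (ih hfT m) (by positivity)
      · intro U hU V hV h
        have hUa : a ∉ U := fun h' => ha ((mem_powersetCard.1 hU).1 h')
        have hVa : a ∉ V := fun h' => ha ((mem_powersetCard.1 hV).1 h')
        rw [← erase_insert hUa, h, erase_insert hVa]
      · rw [disjoint_left]
        rintro U hU hU'
        obtain ⟨V, -, rfl⟩ := mem_image.1 hU'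
        exact ha ((mem_powersetCard.1 hU).1 (mem_insert_self a V))

/-- What is left of the level after a kept set, on the logarithmic scale. -/
theorem kept_invariant {D L : ℝ} {β par : ℕ} (hβ : 2 ≤ β) (hpar : par < 2)
    (hL : 0 ≤ L) (hβD : (β : ℝ) * L ≤ Real.log D) :
    ∀ U : Finset ℕ, (∀ q ∈ U, 1 ≤ q ∧ Real.log q ≤ L) → Kept D β par U →
      (1 - 1 / (β : ℝ)) ^ #U * Real.log D ≤ Real.log D - ∑ q ∈ U, Real.log q ∧
      ((#U + 1) % 2 ≠ par → ∀ p : ℕ, 1 ≤ p → Real.log p ≤ L → (∀ q ∈ U, p < q) →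
        (β : ℝ) * Real.log p ≤ Real.log D - ∑ q ∈ U, Real.log q) := by
  classical
  have hb : (2 : ℝ) ≤ β := Nat.ofNat_le_cast.2 hβ
  have hc : 0 ≤ 1 - 1 / (β : ℝ) := by
    rw [sub_nonneg, div_le_one (by linarith)]
    linarith
  intro U
  induction U using Finset.induction_on_min with
  | empty =>
    refine fun _ _ => ⟨by simp, fun _ p _ hp _ => ?_⟩
    rw [sum_empty, sub_zero]
    exact (mul_le_mul_of_nonneg_left hp (by linarith)).trans hβD
  | insert a U haU ih =>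
    intro hU hk
    have haU' : a ∉ U := fun h => (haU a h).false
    have hU' : ∀ q ∈ U, 1 ≤ q ∧ Real.log q ≤ L := fun q hq => hU q (mem_insert_of_mem hq)
    have hk' : Kept D β par U := fun q hq => (admissible_congr
      (by rw [filter_insert, if_neg (not_le.2 (haU q hq))])).1 (hk q (mem_insert_of_mem hq))
    obtain ⟨ih1, ih2⟩ := ih hU' hk'
    obtain ⟨ha1, haL⟩ := hU a (mem_insert_self a U)
    have ha0 : (0 : ℝ) < a := Nat.cast_pos.2 ha1
    have hla : 0 ≤ Real.log a := Real.log_natCast_nonneg a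
    have hW : 0 ≤ Real.log D - ∑ q ∈ U, Real.log q :=
      (mul_nonneg (pow_nonneg hc _) ((mul_nonneg (by linarith) hL).trans hβD)).trans ih1
    rw [card_insert_of_notMem haU', sum_insert haU']
    by_cases hp : (#U + 1) % 2 = par
    · have hadm := hk a (mem_insert_self a U)
      rw [Admissible, filter_true_of_mem fun q hq => (mem_insert.1 hq).elim (fun e => e ▸ le_rfl)
        fun hq => (haU q hq).le, card_insert_of_notMem haU', prod_insert haU'] at hadm
      have hUpos : 0 < ∏ q ∈ U, q := prod_pos fun q hq => (hU' q hq).1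
      have hne : ∀ q ∈ U, (q : ℝ) ≠ 0 := fun q hq =>
        Nat.cast_ne_zero.2 (Nat.one_le_iff_ne_zero.1 (hU' q hq).1)
      have hlhs : (0 : ℝ) < ((a * ∏ q ∈ U, q : ℕ) : ℝ) := Nat.cast_pos.2 (Nat.mul_pos ha1 hUpos)
      have h := Real.log_lt_log (mul_pos hlhs (pow_pos ha0 β)) (hadm hp)
      rw [Real.log_mul hlhs.ne' (pow_ne_zero _ ha0.ne'), Nat.cast_mul, Nat.cast_prod,
        Real.log_mul ha0.ne' (prod_ne_zero_iff.2 hne), Real.log_prod hne, Real.log_pow] at h
      refine ⟨?_, fun _ p hp1 hpL hlt => ?_⟩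
      · rw [pow_succ']
        refine le_trans (le_of_eq (mul_assoc _ _ _)) (le_trans
          (mul_le_mul_of_nonneg_left ih1 hc) ?_)
        rw [sub_mul, one_mul, one_div, ← div_eq_inv_mul]
        have : Real.log a ≤ (Real.log D - ∑ q ∈ U, Real.log q) / β := by
          rw [le_div_iff₀ (by linarith)]
          nlinarith
        linarith
      · have hpa : Real.log p ≤ Real.log a := Real.log_le_log (Nat.cast_pos.2 hp1)
          (Nat.cast_le.2 (hlt a (mem_insert_self a U)).le)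
        nlinarith
    · refine ⟨?_, fun h => absurd ?_ h⟩
      · have h := ih2 hp a ha1 haL haU
        rw [pow_succ']
        refine le_trans (le_of_eq (mul_assoc _ _ _)) (le_trans
          (mul_le_mul_of_nonneg_left ih1 hc) ?_)
        rw [sub_mul, one_mul, one_div, ← div_eq_inv_mul]
        have : Real.log a ≤ (Real.log D - ∑ q ∈ U, Real.log q) / β := by
          rw [le_div_iff₀ (by linarith)]
          linarith
        linarith
      · omega

theorem kept_prod_lt {D L : ℝ} {β par : ℕ} (hβ : 2 ≤ β) (hpar : par < 2)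
    (hD : 0 < D) (hL : 0 < L) (hβD : (β : ℝ) * L ≤ Real.log D) {U : Finset ℕ}
    (hU : ∀ q ∈ U, 1 ≤ q ∧ Real.log q ≤ L) (hk : Kept D β par U) :
    ((∏ q ∈ U, q : ℕ) : ℝ) < D := by
  have hb : (2 : ℝ) ≤ β := Nat.ofNat_le_cast.2 hβ
  have h := (kept_invariant hβ hpar hL.le hβD U hU hk).1
  have hpos : 0 < (1 - 1 / (β : ℝ)) ^ #U * Real.log D := by
    refine mul_pos (pow_pos ?_ _) ((mul_pos (by linarith) hL).trans_le hβD)
    rw [sub_pos, div_lt_one (by linarith)]
    linarith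
  refine (Real.log_lt_log_iff (Nat.cast_pos.2 (prod_pos fun q hq => (hU q hq).1)) hD).1 ?_
  rw [Nat.cast_prod, Real.log_prod
    fun q hq => Nat.cast_ne_zero.2 (Nat.one_le_iff_ne_zero.1 (hU q hq).1)]
  linarith

theorem nine_ratio_le : Real.exp (10 / 9) / 9 * Real.exp 1 ≤ 0.95 := by
  rw [div_mul_eq_mul_div, ← Real.exp_add, div_le_iff₀ (by norm_num)]
  have e : Real.exp (10 / 9 + 1) = Real.exp 1 * Real.exp 1 * Real.exp (1 / 9) := by
    rw [← Real.exp_add, ← Real.exp_add]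
    norm_num
  have h1 : Real.exp (1 / 9) ≤ 9 / 8 :=
    le_of_le_of_eq (Real.exp_bound_div_one_sub_of_interval (by norm_num) (by norm_num))
      (by norm_num)
  have h2 := Real.exp_one_lt_d9
  rw [e]
  refine (mul_le_mul (mul_le_mul h2.le h2.le (Real.exp_pos 1).le (by norm_num)) h1
    (Real.exp_pos _).le (by norm_num)).trans ?_
  norm_num

/-- The sets stopped after `n` steps. -/
theorem fiber_le {T : Finset ℕ} {x : ℕ → ℝ} {Z κ K s : ℝ} {β par n : ℕ}
    (hT : ∀ p ∈ T, 2 ≤ p ∧ (p : ℝ) < Z) (hx : ∀ p ∈ T, 0 ≤ x p ∧ x p < 1) (hZ : 2 ≤ Z)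
    (hκ : 0 ≤ κ) (hβ : 9 * κ + 1 ≤ (β : ℝ)) (hβ2 : 2 ≤ β) (hpar : par < 2) (hK : 1 ≤ K)
    (hs : (β : ℝ) ≤ s) (hdim : DimensionBound T x Z κ K) :
    ∑ c ∈ (T.sigma fun p => stopSets (Z ^ s) β par T p).filter (fun c => #c.2 + 1 = n),
      (∏ q ∈ insert c.1 c.2, x q) * ∏ q ∈ T.filter (· < c.1), (1 - x q) ≤
    K ^ 10 * (Real.exp ((β : ℝ) - s) * 0.95 ^ n) * ∏ p ∈ T, (1 - x p) := by
  classical
  obtain ⟨S, hS⟩ : ∃ S, S = (T.sigma fun p => stopSets (Z ^ s) β par T p).filter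
      (fun c => #c.2 + 1 = n) := ⟨_, rfl⟩
  rw [← hS]
  have hb : (2 : ℝ) ≤ β := Nat.ofNat_le_cast.2 hβ2
  have hV : 0 < ∏ p ∈ T, (1 - x p) := prod_pos fun p hp => sub_pos.2 (hx p hp).2
  have hL : 0 < Real.log Z := Real.log_pos (by linarith)
  have hD : 0 < Z ^ s := Real.rpow_pos_of_pos (by linarith) s
  have hlogD : Real.log (Z ^ s) = s * Real.log Z := Real.log_rpow (by linarith) s
  have hβD : (β : ℝ) * Real.log Z ≤ Real.log (Z ^ s) :=
    hlogD ▸ mul_le_mul_of_nonneg_right hs hL.le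
  obtain ⟨c, hc⟩ : ∃ c, c = 1 - 1 / (β : ℝ) := ⟨_, rfl⟩
  have hc0 : 0 < c := by
    rw [hc, sub_pos, div_lt_one (by linarith)]
    linarith
  have hc1 : c ≤ 1 := by rw [hc]; exact sub_le_self _ (by positivity)
  have hlogT : ∀ p ∈ T, Real.log p ≤ Real.log Z := fun p hp =>
    Real.log_le_log (Nat.cast_pos.2 (by linarith [(hT p hp).1])) (hT p hp).2.le
  -- the elements of a stopped set are not too small, and it has many of them
  have hgeom : ∀ d ∈ S, (c ^ n * Real.log Z ≤ Real.log (d.1 : ℕ)) ∧ s ≤ n + β := by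
    intro d hd
    rw [hS, mem_filter, mem_sigma] at hd
    obtain ⟨⟨hp, hU⟩, hn⟩ := hd
    have hU' : ∀ q ∈ d.2, 1 ≤ q ∧ Real.log q ≤ Real.log Z := fun q hq => by
      have hqT := (mem_filter.1 ((mem_stopSets.1 hU).1 hq)).1
      exact ⟨by linarith [(hT q hqT).1], hlogT q hqT⟩
    have hp1 : 1 ≤ d.1 := by linarith [(hT _ hp).1]
    have h1 := (kept_invariant hβ2 hpar hL.le hβD d.2 hU' (mem_stopSets.1 hU).2.1).1
    have h2 := Real.log_le_log hD (parity_of_mem_stopSets hU).2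
    have hpd : d.1 ∉ d.2 := fun h => (lt_of_mem_stopSets hU h).false
    have hne : ∀ q ∈ d.2, (q : ℝ) ≠ 0 := fun q hq =>
      Nat.cast_ne_zero.2 (Nat.one_le_iff_ne_zero.1 (hU' q hq).1)
    have hp0 : (d.1 : ℝ) ≠ 0 := Nat.cast_ne_zero.2 (Nat.one_le_iff_ne_zero.1 hp1)
    rw [Nat.cast_prod, prod_insert hpd, Real.log_mul (mul_ne_zero hp0 (prod_ne_zero_iff.2 hne))
      (pow_ne_zero _ hp0), Real.log_mul hp0 (prod_ne_zero_iff.2 hne), Real.log_prod hne,
      Real.log_pow] at h2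
    rw [← hn]
    constructor
    · have h3 : c ^ #d.2 * Real.log (Z ^ s) ≤ ((β : ℝ) + 1) * Real.log (d.1 : ℕ) := by
        rw [hc]
        linarith
      have hle : c * ((β : ℝ) + 1) ≤ β := by
        rw [hc, sub_mul, one_mul, one_div, ← div_eq_inv_mul, sub_le_iff_le_add]
        have : 1 ≤ ((β : ℝ) + 1) / β := by rw [le_div_iff₀ (by linarith)]; linarith
        linarith
      rw [pow_succ]
      refine le_of_mul_le_mul_right ?_ (show (0 : ℝ) < β + 1 by linarith)
      calc c ^ #d.2 * c * Real.log Z * (β + 1) = c ^ #d.2 * ((c * (β + 1)) * Real.log Z) := by ring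
        _ ≤ c ^ #d.2 * ((β : ℝ) * Real.log Z) := mul_le_mul_of_nonneg_left
            (mul_le_mul_of_nonneg_right hle hL.le) (pow_nonneg hc0.le _)
        _ ≤ c ^ #d.2 * Real.log (Z ^ s) := mul_le_mul_of_nonneg_left hβD (pow_nonneg hc0.le _)
        _ ≤ _ := by rw [mul_comm (Real.log (d.1 : ℕ))]; exact h3
    · have h4 : ∑ q ∈ d.2, Real.log q ≤ #d.2 * Real.log Z :=
        (sum_le_card_nsmul _ _ _ fun q hq => (hU' q hq).2).trans (le_of_eq (nsmul_eq_mul _ _))
      have h5 : ((β : ℝ) + 1) * Real.log (d.1 : ℕ) ≤ ((β : ℝ) + 1) * Real.log Z :=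
        mul_le_mul_of_nonneg_left (hlogT _ hp) (by linarith)
      rw [hlogD] at h2
      refine le_of_mul_le_mul_right ?_ hL
      push_cast
      linarith
  rcases S.eq_empty_or_nonempty with hemp | ⟨d₀, hd₀⟩
  · rw [hemp, sum_empty]
    exact mul_nonneg (by positivity) hV.le
  have hsn : s ≤ n + β := (hgeom d₀ hd₀).2
  obtain ⟨w, hw⟩ : ∃ w, w = max 2 (Real.exp (c ^ n * Real.log Z)) := ⟨_, rfl⟩
  have hcn : c ^ n ≤ 1 := pow_le_one₀ hc0.le hc1
  have hwZ : w ≤ Z := hw ▸ max_le hZ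
    ((Real.le_log_iff_exp_le (by linarith)).1 (mul_le_of_le_one_left hL.le hcn))
  obtain ⟨R, hR⟩ : ∃ R, R = T.filter (fun q : ℕ => w ≤ q) := ⟨_, rfl⟩
  have hRT : R ⊆ T := hR ▸ filter_subset _ _
  obtain ⟨P, hP⟩ : ∃ P, P = ∏ q ∈ R, (1 - x q)⁻¹ := ⟨_, rfl⟩
  have hP0 : 0 < P := hP ▸ prod_pos fun q hq => inv_pos.2 (sub_pos.2 (hx q (hRT hq)).2)
  have hPle : P ≤ K * Real.exp (n / 9) := by
    have h := hdim w (hw ▸ le_max_left _ _) hwZ
    rw [← hR, ← hP] at h
    refine h.trans (mul_le_mul_of_nonneg_left ?_ (by linarith))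
    have hlw : c ^ n * Real.log Z ≤ Real.log w := by
      refine (Real.le_log_iff_exp_le ?_).2 (hw ▸ le_max_right _ _)
      linarith [le_max_left (2 : ℝ) (Real.exp (c ^ n * Real.log Z)), hw]
    have hlw0 : 0 < Real.log w := (mul_pos (pow_pos hc0 n) hL).trans_le hlw
    refine (Real.rpow_le_rpow (div_nonneg hL.le hlw0.le)
      (show Real.log Z / Real.log w ≤ 1 / c ^ n by
        rw [div_le_div_iff₀ hlw0 (pow_pos hc0 n)]; linarith) hκ).trans ?_
    rw [Real.rpow_def_of_pos (by positivity), Real.exp_le_exp, one_div, ← inv_pow, Real.log_pow,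
      show (n : ℝ) / 9 = n * (1 / 9) by ring, mul_assoc]
    refine mul_le_mul_of_nonneg_left ?_ (Nat.cast_nonneg n)
    have h1 := Real.log_le_sub_one_of_pos (inv_pos.2 hc0)
    have h2 : c⁻¹ - 1 = 1 / ((β : ℝ) - 1) := by
      rw [hc, one_sub_div (by linarith), inv_div, div_sub_one (by linarith)]
      congr 1
      ring
    refine (mul_le_mul_of_nonneg_right (h1.trans_eq h2) hκ).trans ?_
    rw [div_mul_eq_mul_div, one_mul, div_le_div_iff₀ (by linarith) (by norm_num)]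
    linarith
  have hVlow : ∀ d ∈ S, ∏ q ∈ T.filter (· < d.1), (1 - x q) ≤ (∏ q ∈ T, (1 - x q)) * P := by
    intro d hd
    have hsub : T \ R ⊆ T.filter (· < d.1) := by
      intro q hq
      rw [mem_sdiff, hR, mem_filter, not_and, not_le] at hq
      refine mem_filter.2 ⟨hq.1, ?_⟩
      by_contra hle
      rw [not_lt] at hle
      have hd' := hd
      rw [hS, mem_filter, mem_sigma] at hd'
      have h1 : (2 : ℝ) ≤ (d.1 : ℕ) := Nat.ofNat_le_cast.2 (hT _ hd'.1.1).1
      have h2 : w ≤ (d.1 : ℕ) := hw ▸ max_le h1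
        ((Real.le_log_iff_exp_le (by linarith)).1 (hgeom d hd).1)
      exact absurd (hq.2 hq.1) (not_lt.2 (h2.trans (Nat.cast_le.2 hle)))
    refine (prod_le_prod_of_subset_of_le_one hsub
      (fun q hq => sub_nonneg.2 (hx q (mem_filter.1 hq).1).2.le)
      fun q hq _ => sub_le_self _ (hx q (mem_filter.1 hq).1).1).trans (le_of_eq ?_)
    rw [hP, ← prod_sdiff hRT, mul_assoc, ← prod_mul_distrib]
    rw [prod_eq_one fun q hq => mul_inv_cancel₀ (sub_pos.2 (hx q (hRT hq)).2).ne', mul_one]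
  have hmem : ∀ d ∈ S, insert d.1 d.2 ∈ R.powersetCard n := by
    intro d hd
    have hd' := hd
    rw [hS, mem_filter, mem_sigma] at hd'
    obtain ⟨⟨hp, hU⟩, hn⟩ := hd'
    have hwp : w ≤ (d.1 : ℕ) := hw ▸ max_le (Nat.ofNat_le_cast.2 (hT _ hp).1)
      ((Real.le_log_iff_exp_le (Nat.cast_pos.2 (by linarith [(hT _ hp).1]))).1 (hgeom d hd).1)
    refine mem_powersetCard.2 ⟨fun q hq => ?_, ?_⟩
    · rw [hR, mem_filter]
      rcases mem_insert.1 hq with rfl | hq
      · exact ⟨hp, hwp⟩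
      · exact ⟨(mem_filter.1 ((mem_stopSets.1 hU).1 hq)).1,
          hwp.trans (Nat.cast_le.2 (lt_of_mem_stopSets hU hq).le)⟩
    · rw [card_insert_of_notMem fun h => (lt_of_mem_stopSets hU h).false, hn]
  have hinj : Set.InjOn (fun d : (_ : ℕ) × Finset ℕ => insert d.1 d.2) S := by
    intro d hd e he h
    rw [mem_coe, hS, mem_filter, mem_sigma] at hd he
    dsimp only at h
    have hmin : ∀ {a b : (_ : ℕ) × Finset ℕ}, a.2 ∈ stopSets (Z ^ s) β par T a.1 →
        b.1 ∈ insert a.1 a.2 → a.1 ≤ b.1 := fun ha hb => (mem_insert.1 hb).elim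
      (fun e => e.ge) fun hb => (lt_of_mem_stopSets ha hb).le
    have h1 : d.1 = e.1 := le_antisymm (hmin hd.1.2 (h ▸ mem_insert_self _ _))
      (hmin he.1.2 (h ▸ mem_insert_self _ _))
    refine Sigma.ext h1 (heq_of_eq ?_)
    rw [← erase_insert fun h' => (lt_of_mem_stopSets hd.1.2 h').false, h, h1,
      erase_insert fun h' => (lt_of_mem_stopSets he.1.2 h').false]
  have hxR : ∀ q ∈ R, 0 ≤ x q := fun q hq => (hx q (hRT hq)).1
  have hnonneg : ∀ U ∈ R.powersetCard n, 0 ≤ ∏ q ∈ U, x q := fun U hU =>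
    prod_nonneg fun q hq => hxR q ((mem_powersetCard.1 hU).1 hq)
  have hesym : ∑ U ∈ R.powersetCard n, ∏ q ∈ U, x q ≤ K ^ 9 * (Real.exp 1 / 9) ^ n := by
    have h1 := factorial_mul_esymm_le hxR n
    have hsum : Real.exp (∑ q ∈ R, x q) ≤ K * Real.exp (n / 9) := by
      refine le_trans ?_ hPle
      rw [Real.exp_sum, hP]
      refine prod_le_prod (fun q _ => (Real.exp_pos _).le) fun q hq => ?_
      rw [le_inv_comm₀ (Real.exp_pos _) (sub_pos.2 (hx q (hRT hq)).2), ← Real.exp_neg]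
      linarith [Real.add_one_le_exp (-x q)]
    have h2 := Real.pow_div_factorial_le_exp (x := 9 * ∑ q ∈ R, x q)
      (mul_nonneg (by norm_num) (sum_nonneg hxR)) n
    rw [div_le_iff₀ (by positivity), mul_pow] at h2
    have h3 : Real.exp (9 * ∑ q ∈ R, x q) ≤ K ^ 9 * Real.exp 1 ^ n := by
      rw [show (9 : ℝ) * ∑ q ∈ R, x q = ((9 : ℕ) : ℝ) * ∑ q ∈ R, x q by norm_num,
        Real.exp_nat_mul]
      refine (pow_le_pow_left₀ (Real.exp_pos _).le hsum 9).trans (le_of_eq ?_)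
      rw [mul_pow, ← Real.exp_nat_mul, ← Real.exp_nat_mul]
      congr 2
      ring
    rw [div_pow, mul_div_assoc', le_div_iff₀ (by positivity)]
    refine le_of_mul_le_mul_left ?_ (show (0 : ℝ) < n.factorial by positivity)
    calc (n.factorial : ℝ) * ((∑ U ∈ R.powersetCard n, ∏ q ∈ U, x q) * 9 ^ n)
        ≤ (∑ q ∈ R, x q) ^ n * 9 ^ n := by
          rw [← mul_assoc]
          exact mul_le_mul_of_nonneg_right h1 (by positivity)
      _ ≤ Real.exp (9 * ∑ q ∈ R, x q) * n.factorial := by linarith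
      _ ≤ (K ^ 9 * Real.exp 1 ^ n) * n.factorial := mul_le_mul_of_nonneg_right h3 (by positivity)
      _ = _ := mul_comm _ _
  calc ∑ d ∈ S, (∏ q ∈ insert d.1 d.2, x q) * ∏ q ∈ T.filter (· < d.1), (1 - x q)
      ≤ ∑ d ∈ S, (∏ q ∈ insert d.1 d.2, x q) * ((∏ q ∈ T, (1 - x q)) * P) :=
        sum_le_sum fun d hd => mul_le_mul_of_nonneg_left (hVlow d hd) (hnonneg _ (hmem d hd))
    _ = (∑ U ∈ S.image (fun d => insert d.1 d.2), ∏ q ∈ U, x q) *
          ((∏ q ∈ T, (1 - x q)) * P) := by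
        rw [← sum_mul, sum_image hinj]
    _ ≤ K ^ 9 * (Real.exp 1 / 9) ^ n * ((∏ q ∈ T, (1 - x q)) * (K * Real.exp (n / 9))) := by
        refine mul_le_mul ((sum_le_sum_of_subset_of_nonneg (image_subset_iff.2 hmem)
          fun U hU _ => hnonneg U hU).trans hesym) (mul_le_mul_of_nonneg_left hPle hV.le)
          (mul_nonneg hV.le hP0.le) (by positivity)
    _ = K ^ 10 * (Real.exp (10 / 9) / 9) ^ n * ∏ q ∈ T, (1 - x q) := by
        rw [show (n : ℝ) / 9 = (n : ℝ) * (1 / 9) by ring, Real.exp_nat_mul, div_pow, div_pow,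
          show (10 : ℝ) / 9 = 1 + 1 / 9 by norm_num, Real.exp_add, mul_pow]
        ring
    _ ≤ _ := by
        refine mul_le_mul_of_nonneg_right (mul_le_mul_of_nonneg_left ?_ (by positivity)) hV.le
        have h1 : (Real.exp (10 / 9) / 9) ^ n ≤ Real.exp (-(n : ℝ)) * 0.95 ^ n := by
          rw [show Real.exp (-(n : ℝ)) = Real.exp (-1) ^ n by rw [← Real.exp_nat_mul]; ring_nf,
            ← mul_pow]
          refine pow_le_pow_left₀ (by positivity) ?_ n
          rw [Real.exp_neg, ← div_eq_inv_mul, le_div_iff₀ (Real.exp_pos 1)]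
          exact nine_ratio_le
        refine h1.trans (mul_le_mul_of_nonneg_right (Real.exp_le_exp.2 ?_) (by positivity))
        linarith

/-- **The fundamental lemma**, for the truncated products. -/
theorem defect_le {T : Finset ℕ} {x : ℕ → ℝ} {Z κ K s : ℝ} {β par : ℕ}
    (hT : ∀ p ∈ T, 2 ≤ p ∧ (p : ℝ) < Z) (hx : ∀ p ∈ T, 0 ≤ x p ∧ x p < 1) (hZ : 2 ≤ Z)
    (hκ : 0 ≤ κ) (hβ : 9 * κ + 1 ≤ (β : ℝ)) (hβ2 : 2 ≤ β) (hpar : par < 2) (hK : 1 ≤ K)
    (hs : (β : ℝ) ≤ s) (hdim : DimensionBound T x Z κ K) :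
    defect (Z ^ s) β par T x ≤
      20 * Real.exp β * K ^ 10 * Real.exp (-s) * ∏ p ∈ T, (1 - x p) := by
  classical
  have hV : 0 ≤ ∏ p ∈ T, (1 - x p) := prod_nonneg fun p hp => (sub_pos.2 (hx p hp).2).le
  rw [defect, ← sum_sigma T (fun p => stopSets (Z ^ s) β par T p) fun c =>
      (∏ q ∈ insert c.1 c.2, x q) * ∏ q ∈ T.filter (· < c.1), (1 - x q),
    ← sum_fiberwise_of_maps_to (g := fun c => #c.2 + 1) (t := range (#T + 1)) fun c hc => ?_]
  · refine (sum_le_sum fun n _ => fiber_le hT hx hZ hκ hβ hβ2 hpar hK hs hdim).trans ?_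
    rw [← sum_mul, ← mul_sum, ← mul_sum]
    refine mul_le_mul_of_nonneg_right ?_ hV
    have hg : ∑ n ∈ range (#T + 1), (0.95 : ℝ) ^ n ≤ 20 := by
      refine ((summable_geometric_of_lt_one (by norm_num) (by norm_num)).sum_le_tsum _
        fun n _ => by positivity).trans ?_
      rw [tsum_geometric_of_lt_one (by norm_num) (by norm_num)]
      norm_num
    refine (mul_le_mul_of_nonneg_left (mul_le_mul_of_nonneg_left hg (Real.exp_pos _).le)
      (by positivity)).trans (le_of_eq ?_)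
    rw [sub_eq_add_neg (β : ℝ) s, Real.exp_add]
    ring
  · rw [mem_sigma] at hc
    rw [mem_range, Nat.succ_lt_succ_iff]
    refine (card_lt_card (t := T) ?_)
    refine (Finset.ssubset_iff_of_subset fun q hq => (mem_filter.1
      ((mem_stopSets.1 hc.2).1 hq)).1).2 ⟨c.1, hc.1, fun h => (lt_of_mem_stopSets hc.2 h).false⟩

end FA.CombinatorialSieve
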