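import Fermat.Agent.CombinatorialSieve.Defect
import Mathlib.NumberTheory.SelbergSieve

/-!
# The beta sieve for a `BoundingSieve`

The weights `betaWeight`, and the two inequalities of the fundamental lemma for the sifted sum.
-/

set_option autoImplicit false

noncomputable section

namespace FA.CombinatorialSieve

open Finset
open scoped ArithmeticFunction.Moebius

open Classical in
/-- The weights of the beta sieve: `μ` on the kept squarefree numbers. -/
def betaWeight (D : ℝ) (β par : ℕ) (d : ℕ) : ℝ :=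
  if Squarefree d ∧ Kept D β par d.primeFactors then (μ d : ℝ) else 0

/-- The product `∏ (1 - ν p)` over the sieving primes. -/
def sieveProduct (S : BoundingSieve) : ℝ := ∏ p ∈ S.prodPrimes.primeFactors, (1 - S.nu p)

/-- The part of `errSum` below the level. -/
def remSum (S : BoundingSieve) (D : ℝ) : ℝ :=
  ∑ d ∈ S.prodPrimes.divisors.filter (fun d : ℕ => (d : ℝ) < D), |S.rem d|

theorem abs_betaWeight_le (D : ℝ) (β par d : ℕ) : |betaWeight D β par d| ≤ 1 := by
  rw [betaWeight]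
  split_ifs
  · exact_mod_cast ArithmeticFunction.abs_moebius_le_one
  · simp

theorem moebius_eq_neg_one_pow {d : ℕ} (hd : Squarefree d) :
    (μ d : ℝ) = (-1) ^ #d.primeFactors := by
  rw [ArithmeticFunction.moebius_apply_of_squarefree hd, Int.cast_pow, Int.cast_neg, Int.cast_one]
  congr 1
  rw [ArithmeticFunction.cardFactors_apply, Nat.primeFactors,
    List.card_toFinset,
    List.Nodup.dedup (Nat.squarefree_iff_nodup_primeFactorsList hd.ne_zero |>.1 hd)]

/-- The weights against a multiplicative `f` give the truncated product. -/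
theorem sum_betaWeight_mul {P : ℕ} (hP : Squarefree P) (D : ℝ) (β par : ℕ) (f g : ℕ → ℝ)
    (hf : ∀ d ∈ P.divisors, f d = ∏ p ∈ d.primeFactors, g p) :
    ∑ d ∈ P.divisors, betaWeight D β par d * f d = truncSum D β par P.primeFactors g := by
  classical
  refine sum_nbij' (fun d => d.primeFactors) (fun U => ∏ p ∈ U, p) ?_ ?_ ?_ ?_ ?_
  · intro d hd
    exact mem_powerset.2 (Nat.primeFactors_mono (Nat.dvd_of_mem_divisors hd) hP.ne_zero)
  · intro U hU
    rw [mem_powerset] at hU
    rw [Nat.mem_divisors]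
    exact ⟨(Nat.prod_primeFactors_of_squarefree hP) ▸ prod_dvd_prod_of_subset _ _ _ hU, hP.ne_zero⟩
  · intro d hd
    exact Nat.prod_primeFactors_of_squarefree (hP.squarefree_of_dvd (Nat.dvd_of_mem_divisors hd))
  · intro U hU
    rw [mem_powerset] at hU
    exact Nat.primeFactors_prod fun p hp => Nat.prime_of_mem_primeFactors (hU hp)
  · intro d hd
    have hsq := hP.squarefree_of_dvd (Nat.dvd_of_mem_divisors hd)
    rw [betaWeight, hf d hd]
    split_ifs with h1 h2 h2
    · rw [moebius_eq_neg_one_pow hsq, prod_neg]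
    · exact absurd h1.2 h2
    · exact absurd ⟨hsq, h2⟩ h1
    · rw [zero_mul]

theorem dvd_indicator {P : ℕ} (hP : Squarefree P) (n : ℕ) {d : ℕ} (hd : d ∈ P.divisors) :
    (if d ∣ n then (1 : ℝ) else 0) = ∏ p ∈ d.primeFactors, if p ∣ n then (1 : ℝ) else 0 := by
  rw [prod_ite_zero, prod_const_one]
  have hsq := hP.squarefree_of_dvd (Nat.dvd_of_mem_divisors hd)
  refine if_congr ⟨fun h p hp => (Nat.dvd_of_mem_primeFactors hp).trans h, fun h => ?_⟩ rfl rfl
  rw [← Nat.prod_primeFactors_of_squarefree hsq]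
  exact prod_primes_dvd n (fun p hp => (Nat.prime_of_mem_primeFactors hp).prime) h

theorem coprime_indicator {P : ℕ} (hP : P ≠ 0) (n : ℕ) :
    ∏ p ∈ P.primeFactors, (1 - if p ∣ n then (1 : ℝ) else 0) =
      if P.Coprime n then 1 else 0 := by
  split_ifs with h
  · refine prod_eq_one fun p hp => ?_
    have hpp := Nat.prime_of_mem_primeFactors hp
    rw [if_neg fun hpn => hpp.not_dvd_one (h ▸ Nat.dvd_gcd (Nat.dvd_of_mem_primeFactors hp) hpn),
      sub_zero]
  · obtain ⟨p, hpp, hpP, hpn⟩ := Nat.Prime.not_coprime_iff_dvd.1 h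
    exact prod_eq_zero (Nat.mem_primeFactors.2 ⟨hpp, hpP, hP⟩) (by rw [if_pos hpn, sub_self])

/-- **The upper beta weights are upper Möbius** on the divisors of `P`. -/
theorem le_sum_betaWeight_upper {P : ℕ} (hP : Squarefree P) (D : ℝ) (β n : ℕ) :
    (if P.Coprime n then (1 : ℝ) else 0) ≤
      ∑ d ∈ P.divisors, betaWeight D β 1 d * if d ∣ n then (1 : ℝ) else 0 := by
  rw [sum_betaWeight_mul hP D β 1 _ _ fun d hd => dvd_indicator hP n hd,
    ← coprime_indicator hP.ne_zero n]
  exact prod_le_truncSum fun p _ => by split_ifs <;> norm_num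

/-- **The lower beta weights are lower Möbius** on the divisors of `P`. -/
theorem sum_betaWeight_lower_le {P : ℕ} (hP : Squarefree P) (D : ℝ) (β n : ℕ) :
    ∑ d ∈ P.divisors, betaWeight D β 0 d * (if d ∣ n then (1 : ℝ) else 0) ≤
      if P.Coprime n then (1 : ℝ) else 0 := by
  rw [sum_betaWeight_mul hP D β 0 _ _ fun d hd => dvd_indicator hP n hd,
    ← coprime_indicator hP.ne_zero n]
  exact truncSum_le_prod fun p _ => by split_ifs <;> norm_num

/-- **The upper beta weights are upper Möbius**, for every level. -/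
theorem isUpperMoebius_betaWeight (D : ℝ) (β : ℕ) :
    BoundingSieve.IsUpperMoebius (betaWeight D β 1) := by
  intro n
  rcases Nat.eq_zero_or_pos n with rfl | hn
  · simp
  obtain ⟨P, hP⟩ : ∃ P, P = ∏ p ∈ n.primeFactors, p := ⟨_, rfl⟩
  have hPn : P ∣ n := hP ▸ Nat.prod_primeFactors_dvd n
  have hsq : Squarefree P := hP ▸ squarefree_prod_of_pairwise_isCoprime
    (fun _ ha _ hb h => Nat.coprime_iff_isRelPrime.1 ((Nat.coprime_primes
      (Nat.prime_of_mem_primeFactors ha) (Nat.prime_of_mem_primeFactors hb)).2 h))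
    fun _ ha => (Nat.prime_of_mem_primeFactors ha).squarefree
  have hone : (if n = 1 then (1 : ℝ) else 0) = if P.Coprime n then 1 else 0 := by
    refine if_congr ⟨?_, fun hc => ?_⟩ rfl rfl
    · rintro rfl
      exact Nat.coprime_one_right P
    · by_contra hn1
      obtain ⟨p, hp, hpn⟩ := Nat.exists_prime_and_dvd hn1
      exact hp.not_dvd_one (hc ▸ Nat.dvd_gcd
        (hP ▸ dvd_prod_of_mem _ (Nat.mem_primeFactors.2 ⟨hp, hpn, hn.ne'⟩)) hpn)
  rw [hone]
  refine (le_sum_betaWeight_upper hsq D β n).trans (le_of_eq ?_)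
  rw [← sum_subset (Nat.divisors_subset_of_dvd hn.ne' hPn) fun d hd hdP => ?_]
  · exact sum_congr rfl fun d hd => by rw [if_pos ((Nat.dvd_of_mem_divisors hd).trans hPn), mul_one]
  · rw [betaWeight, if_neg]
    rintro ⟨hdsq, -⟩
    refine hdP (Nat.mem_divisors.2 ⟨?_, hsq.ne_zero⟩)
    rw [← Nat.prod_primeFactors_of_squarefree hdsq, hP]
    exact prod_dvd_prod_of_subset _ _ _
      (Nat.primeFactors_mono (Nat.dvd_of_mem_divisors hd) hn.ne')

theorem sum_weights_eq (S : BoundingSieve) (lam : ℕ → ℝ) :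
    ∑ n ∈ S.support, S.weights n *
        ∑ d ∈ S.prodPrimes.divisors, lam d * (if d ∣ n then (1 : ℝ) else 0) =
      S.totalMass * ∑ d ∈ S.prodPrimes.divisors, lam d * S.nu d +
        ∑ d ∈ S.prodPrimes.divisors, lam d * S.rem d := by
  rw [mul_sum, ← sum_add_distrib]
  simp_rw [mul_sum]
  rw [sum_comm]
  refine sum_congr rfl fun d _ => ?_
  rw [BoundingSieve.rem, BoundingSieve.multSum, mul_sub, mul_sum]
  rw [show ∀ a b : ℝ, S.totalMass * (lam d * a) + (b - lam d * (a * S.totalMass)) = b from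
    fun a b => by ring]
  exact sum_congr rfl fun n _ => by split_ifs <;> ring

theorem betaWeight_eq_zero {P : ℕ} {Z s : ℝ} {β par d : ℕ} (hP : ∀ p ∈ P.primeFactors, (p : ℝ) < Z)
    (hP0 : P ≠ 0) (hZ : 1 < Z) (hβ : 2 ≤ β) (hpar : par < 2) (hs : (β : ℝ) ≤ s) (hd : d ∣ P)
    (hle : Z ^ s ≤ (d : ℝ)) : betaWeight (Z ^ s) β par d = 0 := by
  rw [betaWeight, if_neg]
  rintro ⟨hsq, hk⟩
  refine (not_lt.2 hle) ?_
  have h := kept_prod_lt hβ hpar (Real.rpow_pos_of_pos (by linarith) s) (Real.log_pos hZ)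
    (by rw [Real.log_rpow (by linarith)]; exact mul_le_mul_of_nonneg_right hs (Real.log_pos hZ).le)
    (fun q hq => ⟨(Nat.prime_of_mem_primeFactors hq).one_le,
      Real.log_le_log (Nat.cast_pos.2 (Nat.prime_of_mem_primeFactors hq).pos)
        (hP q (Nat.primeFactors_mono hd hP0 hq)).le⟩) hk
  rwa [Nat.prod_primeFactors_of_squarefree hsq] at h

theorem abs_sum_weight_rem_le (S : BoundingSieve) {Z s : ℝ} {β par : ℕ}
    (hP : ∀ p ∈ S.prodPrimes.primeFactors, (p : ℝ) < Z) (hZ : 1 < Z) (hβ : 2 ≤ β) (hpar : par < 2)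
    (hs : (β : ℝ) ≤ s) :
    |∑ d ∈ S.prodPrimes.divisors, betaWeight (Z ^ s) β par d * S.rem d| ≤ remSum S (Z ^ s) := by
  classical
  refine (abs_sum_le_sum_abs _ _).trans ?_
  rw [remSum, sum_filter]
  refine sum_le_sum fun d hd => ?_
  split_ifs with h
  · rw [abs_mul]
    exact mul_le_of_le_one_left (abs_nonneg _) (abs_betaWeight_le _ _ _ _)
  · rw [betaWeight_eq_zero hP S.prodPrimes_squarefree.ne_zero hZ hβ hpar hs
      (Nat.dvd_of_mem_divisors hd) (not_lt.1 h), zero_mul, abs_zero]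

theorem sieveProduct_pos (S : BoundingSieve) : 0 < sieveProduct S :=
  prod_pos fun _ hp => sub_pos.2 (S.nu_lt_one_of_prime _ (Nat.prime_of_mem_primeFactors hp)
    (Nat.dvd_of_mem_primeFactors hp))

/-- **The fundamental lemma of the sieve**, in every dimension `κ ≥ 0`. -/
theorem fundamental_lemma (S : BoundingSieve) {Z κ K s : ℝ} {β : ℕ} (hX : 0 ≤ S.totalMass)
    (hP : ∀ p ∈ S.prodPrimes.primeFactors, (p : ℝ) < Z) (hZ : 2 ≤ Z)
    (hκ : 0 ≤ κ) (hβ : 9 * κ + 1 ≤ (β : ℝ)) (hβ2 : 2 ≤ β) (hK : 1 ≤ K) (hs : (β : ℝ) ≤ s)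
    (hdim : DimensionBound S.prodPrimes.primeFactors S.nu Z κ K) :
    |S.siftedSum - S.totalMass * sieveProduct S| ≤
      20 * Real.exp β * K ^ 10 * Real.exp (-s) * (S.totalMass * sieveProduct S) +
        remSum S (Z ^ s) := by
  classical
  have hT : ∀ p ∈ S.prodPrimes.primeFactors, 2 ≤ p ∧ (p : ℝ) < Z := fun p hp =>
    ⟨(Nat.prime_of_mem_primeFactors hp).two_le, hP p hp⟩
  have hx : ∀ p ∈ S.prodPrimes.primeFactors, 0 ≤ S.nu p ∧ S.nu p < 1 := fun p hp =>
    ⟨(S.nu_pos_of_prime p (Nat.prime_of_mem_primeFactors hp)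
      (Nat.dvd_of_mem_primeFactors hp)).le, S.nu_lt_one_of_prime p
      (Nat.prime_of_mem_primeFactors hp) (Nat.dvd_of_mem_primeFactors hp)⟩
  have hmain : ∀ par : ℕ, ∑ d ∈ S.prodPrimes.divisors, betaWeight (Z ^ s) β par d * S.nu d =
      sieveProduct S - (-1) ^ par * defect (Z ^ s) β par S.prodPrimes.primeFactors S.nu := by
    intro par
    rw [sum_betaWeight_mul S.prodPrimes_squarefree _ _ _ _ S.nu fun d hd =>
      (BoundingSieve.prod_primeFactors_nu (Nat.dvd_of_mem_divisors hd)).symm, truncSum_eq]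
    rfl
  rw [abs_le]
  constructor
  · have hlow : S.totalMass * ∑ d ∈ S.prodPrimes.divisors, betaWeight (Z ^ s) β 0 d * S.nu d +
        ∑ d ∈ S.prodPrimes.divisors, betaWeight (Z ^ s) β 0 d * S.rem d ≤ S.siftedSum := by
      rw [← sum_weights_eq, BoundingSieve.siftedSum]
      refine sum_le_sum fun n _ => ?_
      refine (mul_le_mul_of_nonneg_left (sum_betaWeight_lower_le S.prodPrimes_squarefree _ β n)
        (S.weights_nonneg n)).trans (le_of_eq ?_)
      rw [mul_ite, mul_one, mul_zero]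
    have hd0 := defect_le (par := 0) hT hx hZ hκ hβ hβ2 (by norm_num) hK hs hdim
    have hr := abs_le.1 (abs_sum_weight_rem_le (par := 0) S hP (by linarith) hβ2 (by norm_num) hs)
    rw [hmain, pow_zero, one_mul, mul_sub] at hlow
    have := mul_le_mul_of_nonneg_left hd0 hX
    rw [sieveProduct] at hlow ⊢
    linarith
  · have hup : S.siftedSum ≤
        S.totalMass * ∑ d ∈ S.prodPrimes.divisors, betaWeight (Z ^ s) β 1 d * S.nu d +
          ∑ d ∈ S.prodPrimes.divisors, betaWeight (Z ^ s) β 1 d * S.rem d := by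
      rw [← sum_weights_eq, BoundingSieve.siftedSum]
      refine sum_le_sum fun n _ => ?_
      refine le_trans (le_of_eq ?_) (mul_le_mul_of_nonneg_left
        (le_sum_betaWeight_upper S.prodPrimes_squarefree _ β n) (S.weights_nonneg n))
      rw [mul_ite, mul_one, mul_zero]
    have hd1 := defect_le (par := 1) hT hx hZ hκ hβ hβ2 (by norm_num) hK hs hdim
    have hr := abs_le.1 (abs_sum_weight_rem_le (par := 1) S hP (by linarith) hβ2 (by norm_num) hs)
    rw [hmain, pow_one, neg_one_mul, sub_neg_eq_add, mul_add] at hup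
    have := mul_le_mul_of_nonneg_left hd1 hX
    rw [sieveProduct] at hup ⊢
    linarith

/-- The lower bound, ready to use. -/
theorem half_le_siftedSum (S : BoundingSieve) {Z κ K s : ℝ} {β : ℕ} (hX : 0 ≤ S.totalMass)
    (hP : ∀ p ∈ S.prodPrimes.primeFactors, (p : ℝ) < Z) (hZ : 2 ≤ Z)
    (hκ : 0 ≤ κ) (hβ : 9 * κ + 1 ≤ (β : ℝ)) (hβ2 : 2 ≤ β) (hK : 1 ≤ K) (hs : (β : ℝ) ≤ s)
    (hC : 20 * Real.exp β * K ^ 10 * Real.exp (-s) ≤ 1 / 2)
    (hdim : DimensionBound S.prodPrimes.primeFactors S.nu Z κ K) :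
    S.totalMass * sieveProduct S / 2 - remSum S (Z ^ s) ≤ S.siftedSum := by
  have h := (abs_le.1 (fundamental_lemma S hX hP hZ hκ hβ hβ2 hK hs hdim)).1
  have := mul_le_mul_of_nonneg_right hC (mul_nonneg hX (sieveProduct_pos S).le)
  linarith

end FA.CombinatorialSieve
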