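import Mathlib.Algebra.BigOperators.Ring.Finset
import Mathlib.Algebra.Order.BigOperators.GroupWithZero.Finset
import Mathlib.Data.Real.Basic
import Mathlib.Tactic

/-!
# The truncated products of the beta sieve

For a finite set `T` of natural numbers, the beta sieve keeps those `U ⊆ T` for which, for every
`p ∈ U` whose rank from the top has the parity `par`, the product of the elements `≥ p` times
`p ^ β` is `< D`. The kept part of the expansion of `∏ p ∈ T, (1 - x p)` differs from the product
by `(-1) ^ par` times an explicit nonnegative defect: this is Buchstab's identity, iterated.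
-/

set_option autoImplicit false

noncomputable section

namespace FA.CombinatorialSieve

open Finset

/-- The condition on `p ∈ U`. -/
def Admissible (D : ℝ) (β par : ℕ) (U : Finset ℕ) (p : ℕ) : Prop :=
  #(U.filter (p ≤ ·)) % 2 = par →
    ((∏ q ∈ U.filter (p ≤ ·), q : ℕ) : ℝ) * (p : ℝ) ^ β < D

/-- The sets kept by the sieve. -/
def Kept (D : ℝ) (β par : ℕ) (U : Finset ℕ) : Prop := ∀ p ∈ U, Admissible D β par U p

open Classical in
/-- The kept part of the expansion of `∏ p ∈ T, (1 - x p)`. -/
def truncSum (D : ℝ) (β par : ℕ) (T : Finset ℕ) (x : ℕ → ℝ) : ℝ :=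
  ∑ U ∈ T.powerset, if Kept D β par U then ∏ p ∈ U, -x p else 0

open Classical in
/-- The kept sets above `p` to which `p` cannot be added. -/
def stopSets (D : ℝ) (β par : ℕ) (T : Finset ℕ) (p : ℕ) : Finset (Finset ℕ) :=
  (T.filter (p < ·)).powerset.filter fun U =>
    Kept D β par U ∧ ¬ Admissible D β par (insert p U) p

/-- What the truncation costs. -/
def defect (D : ℝ) (β par : ℕ) (T : Finset ℕ) (x : ℕ → ℝ) : ℝ :=
  ∑ p ∈ T, ∑ U ∈ stopSets D β par T p,
    (∏ q ∈ insert p U, x q) * ∏ q ∈ T.filter (· < p), (1 - x q)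

theorem kept_empty (D : ℝ) (β par : ℕ) : Kept D β par ∅ := fun p hp => absurd hp (notMem_empty p)

theorem admissible_congr {D : ℝ} {β par p : ℕ} {U U' : Finset ℕ}
    (h : U.filter (p ≤ ·) = U'.filter (p ≤ ·)) :
    Admissible D β par U p ↔ Admissible D β par U' p := by
  rw [Admissible, Admissible, h]

theorem mem_stopSets {D : ℝ} {β par p : ℕ} {T U : Finset ℕ} :
    U ∈ stopSets D β par T p ↔
      (U ⊆ T.filter (p < ·)) ∧ Kept D β par U ∧ ¬ Admissible D β par (insert p U) p := by
  simp [stopSets]

theorem lt_of_mem_stopSets {D : ℝ} {β par p q : ℕ} {T U : Finset ℕ}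
    (h : U ∈ stopSets D β par T p) (hq : q ∈ U) : p < q :=
  (mem_filter.1 ((mem_stopSets.1 h).1 hq)).2

theorem filter_insert_eq {D : ℝ} {β par p : ℕ} {T U : Finset ℕ}
    (h : U ∈ stopSets D β par T p) : (insert p U).filter (p ≤ ·) = insert p U :=
  filter_true_of_mem fun _ hq => (mem_insert.1 hq).elim (fun e => e ▸ le_rfl)
    fun hq => (lt_of_mem_stopSets h hq).le

theorem parity_of_mem_stopSets {D : ℝ} {β par p : ℕ} {T U : Finset ℕ}
    (h : U ∈ stopSets D β par T p) :
    (#U + 1) % 2 = par ∧ D ≤ ((∏ q ∈ insert p U, q : ℕ) : ℝ) * (p : ℝ) ^ β := by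
  have h1 := (mem_stopSets.1 h).2.2
  rw [Admissible, filter_insert_eq h, Classical.not_imp, not_lt,
    card_insert_of_notMem fun hp => (lt_of_mem_stopSets h hp).false] at h1
  exact h1

/-- **Buchstab's identity, iterated.** -/
theorem truncSum_eq (D : ℝ) (β par : ℕ) (T : Finset ℕ) (x : ℕ → ℝ) :
    truncSum D β par T x =
      ∏ p ∈ T, (1 - x p) - (-1) ^ par * defect D β par T x := by
  classical
  have hexp : ∀ S : Finset ℕ, ∑ W ∈ S.powerset, ∏ q ∈ W, -x q = ∏ q ∈ S, (1 - x q) := fun S => by
    rw [← prod_one_add]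
    simp_rw [sub_eq_add_neg]
  have hsplit : truncSum D β par T x +
      ∑ U ∈ T.powerset.filter (fun U => ¬ Kept D β par U), ∏ p ∈ U, -x p =
        ∏ p ∈ T, (1 - x p) := by
    rw [truncSum, sum_filter, ← sum_add_distrib, ← hexp]
    exact sum_congr rfl fun U _ => by by_cases hU : Kept D β par U <;> simp [hU]
  have hrest : (-1 : ℝ) ^ par * defect D β par T x =
      ∑ U ∈ T.powerset.filter (fun U => ¬ Kept D β par U), ∏ p ∈ U, -x p := by
    have e : (-1 : ℝ) ^ par * defect D β par T x = ∑ c ∈ T.sigma fun p =>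
        stopSets D β par T p ×ˢ (T.filter (· < p)).powerset,
          ∏ q ∈ insert c.1 c.2.1 ∪ c.2.2, -x q := by
      rw [defect, mul_sum, sum_sigma]
      refine sum_congr rfl fun p _ => ?_
      rw [mul_sum, sum_product]
      refine sum_congr rfl fun U hU => ?_
      dsimp only
      rw [← hexp, mul_sum, mul_sum]
      refine sum_congr rfl fun W hW => ?_
      have hd : Disjoint (insert p U) W := by
        rw [disjoint_left]
        intro q hq hqW
        have h1 := (mem_filter.1 (mem_powerset.1 hW hqW)).2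
        rcases mem_insert.1 hq with rfl | hq
        · exact h1.false
        · exact ((lt_of_mem_stopSets hU hq).trans h1).false
      rw [prod_union hd, ← mul_assoc]
      congr 1
      rw [prod_neg, card_insert_of_notMem fun hp => (lt_of_mem_stopSets hU hp).false,
        neg_one_pow_eq_pow_mod_two (#U + 1), (parity_of_mem_stopSets hU).1]
    rw [e]
    refine sum_bij (fun c _ => insert c.1 c.2.1 ∪ c.2.2) ?_ ?_ ?_ fun c _ => rfl
    · rintro ⟨p, U, W⟩ hc
      simp only [mem_sigma, mem_product, mem_powerset] at hc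
      obtain ⟨hp, hU, hW⟩ := hc
      rw [mem_filter, mem_powerset]
      refine ⟨union_subset (insert_subset hp fun q hq =>
        (mem_filter.1 ((mem_stopSets.1 hU).1 hq)).1) (hW.trans (filter_subset _ _)), fun hk => ?_⟩
      refine (mem_stopSets.1 hU).2.2 ((admissible_congr ?_).1
        (hk p (mem_union_left _ (mem_insert_self p U))))
      rw [filter_union, union_eq_left]
      intro q hq
      rw [mem_filter] at hq
      exact absurd (mem_filter.1 (hW hq.1)).2 (not_lt.2 hq.2)
    · rintro ⟨p, U, W⟩ hc ⟨p', U', W'⟩ hc' h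
      simp only [mem_sigma, mem_product, mem_powerset] at hc hc'
      dsimp only at h
      have hfilter : ∀ {a : ℕ} {A B : Finset ℕ}, A ∈ stopSets D β par T a →
          B ⊆ T.filter (· < a) → ∀ b, a ≤ b →
            (insert a A ∪ B).filter (b ≤ ·) = (insert a A).filter (b ≤ ·) := by
        intro a A B _ hB b hab
        rw [filter_union, union_eq_left]
        intro q hq
        rw [mem_filter] at hq
        exact absurd (mem_filter.1 (hB hq.1)).2 (not_lt.2 (hab.trans hq.2))
      have hbad : ∀ {a : ℕ} {A B : Finset ℕ}, A ∈ stopSets D β par T a →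
          B ⊆ T.filter (· < a) → ¬ Admissible D β par (insert a A ∪ B) a ∧
            ∀ b ∈ insert a A ∪ B, a < b → Admissible D β par (insert a A ∪ B) b := by
        intro a A B hA hB
        refine ⟨fun hadm => (mem_stopSets.1 hA).2.2
          ((admissible_congr (hfilter hA hB a le_rfl)).1 hadm), fun b hb hab => ?_⟩
        have hbA : b ∈ A := by
          rcases mem_union.1 hb with hb | hb
          · exact (mem_insert.1 hb).resolve_left hab.ne'
          · exact absurd (mem_filter.1 (hB hb)).2 (not_lt.2 hab.le)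
        refine (admissible_congr ?_).2 ((mem_stopSets.1 hA).2.1 b hbA)
        rw [hfilter hA hB b hab.le, filter_insert, if_neg (not_le.2 hab)]
      obtain ⟨h1, h1'⟩ := hbad hc.2.1 hc.2.2
      obtain ⟨h2, h2'⟩ := hbad hc'.2.1 hc'.2.2
      have hpp : p = p' := by
        rcases lt_trichotomy p p' with hlt | heq | hlt
        · refine absurd (h1' p' ?_ hlt) (h ▸ h2)
          rw [h]
          exact mem_union_left _ (mem_insert_self p' U')
        · exact heq
        · refine absurd (h2' p ?_ hlt) (h ▸ h1)
          rw [← h]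
          exact mem_union_left _ (mem_insert_self p U)
      subst hpp
      have key : ∀ {A B : Finset ℕ}, A ∈ stopSets D β par T p → B ⊆ T.filter (· < p) →
          (insert p A ∪ B).filter (p < ·) = A ∧ (insert p A ∪ B).filter (· < p) = B := by
        intro A B hA hB
        constructor <;> ext q <;> simp only [mem_filter, mem_union, mem_insert]
        · constructor
          · rintro ⟨(rfl | hq) | hq, hpq⟩
            · exact absurd hpq (lt_irrefl q)
            · exact hq
            · exact absurd (mem_filter.1 (hB hq)).2 (not_lt.2 hpq.le)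
          · exact fun hq => ⟨Or.inl (Or.inr hq), lt_of_mem_stopSets hA hq⟩
        · constructor
          · rintro ⟨(rfl | hq) | hq, hpq⟩
            · exact absurd hpq (lt_irrefl q)
            · exact absurd (lt_of_mem_stopSets hA hq) (not_lt.2 hpq.le)
            · exact hq
          · exact fun hq => ⟨Or.inr hq, (mem_filter.1 (hB hq)).2⟩
      obtain ⟨e1, e2⟩ := key hc.2.1 hc.2.2
      obtain ⟨e3, e4⟩ := key hc'.2.1 hc'.2.2
      have hU : U = U' := by rw [← e1, ← e3, h]
      have hW : W = W' := by rw [← e2, ← e4, h]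
      rw [hU, hW]
    · intro X hX
      rw [mem_filter, mem_powerset] at hX
      obtain ⟨hXT, hX⟩ := hX
      have hne : (X.filter fun q => ¬ Admissible D β par X q).Nonempty := by
        rw [Kept, not_forall] at hX
        obtain ⟨q, hq⟩ := hX
        rw [Classical.not_imp] at hq
        exact ⟨q, mem_filter.2 hq⟩
      obtain ⟨p, hp⟩ : ∃ p, p = (X.filter fun q => ¬ Admissible D β par X q).max' hne := ⟨_, rfl⟩
      have hpX := mem_filter.1 (hp ▸ max'_mem _ hne)
      have hmax : ∀ q ∈ X, p < q → Admissible D β par X q := fun q hq hpq => by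
        by_contra hc
        exact (not_le.2 hpq) (hp ▸ le_max' _ q (mem_filter.2 ⟨hq, hc⟩))
      refine ⟨⟨p, X.filter (p < ·), X.filter (· < p)⟩, ?_, ?_⟩
      · simp only [mem_sigma, mem_product, mem_powerset, mem_stopSets]
        refine ⟨hXT hpX.1, ⟨filter_subset_filter _ hXT, fun q hq => ?_, fun hadm => ?_⟩,
          filter_subset_filter _ hXT⟩
        · rw [mem_filter] at hq
          refine (admissible_congr ?_).1 (hmax q hq.1 hq.2)
          rw [filter_filter]
          exact filter_congr fun r _ => ⟨fun hr => ⟨hq.2.trans_le hr, hr⟩, fun hr => hr.2⟩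
        · refine hpX.2 ((admissible_congr ?_).1 hadm)
          ext q
          simp only [mem_filter, mem_insert]
          constructor
          · rintro ⟨rfl | hq, hq2⟩
            · exact ⟨hpX.1, hq2⟩
            · exact ⟨hq.1, hq2⟩
          · rintro ⟨hq, hpq⟩
            exact ⟨(eq_or_lt_of_le hpq).elim (fun e => Or.inl e.symm) fun h => Or.inr ⟨hq, h⟩, hpq⟩
      · ext q
        simp only [mem_union, mem_insert, mem_filter]
        constructor
        · rintro ((rfl | hq) | hq)
          · exact hpX.1
          · exact hq.1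
          · exact hq.1
        · intro hq
          rcases lt_trichotomy q p with h | h | h
          · exact Or.inr ⟨hq, h⟩
          · exact Or.inl (Or.inl h)
          · exact Or.inl (Or.inr ⟨hq, h⟩)
  rw [hrest]
  linarith

theorem defect_nonneg {D : ℝ} {β par : ℕ} {T : Finset ℕ} {x : ℕ → ℝ}
    (hx : ∀ p ∈ T, 0 ≤ x p ∧ x p ≤ 1) : 0 ≤ defect D β par T x :=
  sum_nonneg fun p hp => sum_nonneg fun U hU => mul_nonneg
    (prod_nonneg fun q hq => by
      rcases mem_insert.1 hq with rfl | hq
      · exact (hx q hp).1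
      · exact (hx q (mem_filter.1 ((mem_stopSets.1 hU).1 hq)).1).1)
    (prod_nonneg fun q hq => sub_nonneg.2 (hx q (mem_filter.1 hq).1).2)

/-- The upper sieve. -/
theorem prod_le_truncSum {D : ℝ} {β : ℕ} {T : Finset ℕ} {x : ℕ → ℝ}
    (hx : ∀ p ∈ T, 0 ≤ x p ∧ x p ≤ 1) : ∏ p ∈ T, (1 - x p) ≤ truncSum D β 1 T x := by
  rw [truncSum_eq, pow_one]
  linarith [defect_nonneg (D := D) (β := β) (par := 1) hx]

/-- The lower sieve. -/
theorem truncSum_le_prod {D : ℝ} {β : ℕ} {T : Finset ℕ} {x : ℕ → ℝ}
    (hx : ∀ p ∈ T, 0 ≤ x p ∧ x p ≤ 1) : truncSum D β 0 T x ≤ ∏ p ∈ T, (1 - x p) := by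
  rw [truncSum_eq, pow_zero]
  linarith [defect_nonneg (D := D) (β := β) (par := 0) hx]

end FA.CombinatorialSieve
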